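import Mathlib
import Fermat.Prelude.Def_GaloisRep_CompletionBridge
import Fermat.Agent.S55.H88.SemiLocalDefs

/-!
# Program C (S55), package C7, leaf (EX-dict) (helper81): primes of `𝓞 k` and embeddings

`k` a number field, `l` a prime, `τ : k →+* PadicAlgCl l` an embedding.

* `norm_le_one_of_isIntegral`, `norm_le_one_of_integer`: integers have norm `≤ 1`;
* `primeOfEmb τ = {x : 𝓞 k | ‖τ x‖ < 1}`: a nonzero prime ideal containing `l`, depending only on
  the orbit of `τ` under `Gal(PadicAlgCl l / ℚ_l)` (`primeOfEmb_comp`);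
* `not_dvd_norm_of_forall_norm_eq_one`: if `‖τ x‖ = 1` for all `τ` then `l ∤ N_{k/ℚ} x`;
* `exists_emb_of_prime` (**(EX-dict)**, the surjectivity half of the dictionary): every prime
  of `𝓞 k` containing `l` is `primeOfEmb τ` for some `τ`.
-/

set_option autoImplicit false
set_option linter.style.haveILetI false

open NumberField IsDedekindDomain

namespace Fermat.Agent.S55.H81

variable {l : ℕ} [Fact l.Prime]

/-- An element of `PadicAlgCl l` that is integral over `ℤ` has norm `≤ 1`. -/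
theorem norm_le_one_of_isIntegral {z : PadicAlgCl l} (hz : IsIntegral ℤ z) : ‖z‖ ≤ 1 := by
  have h1 : IsIntegral (padicIntegers l) z := hz.tower_top
  obtain ⟨y, hy⟩ := IsIntegrallyClosed.isIntegral_iff.mp h1
  rw [← hy]
  have h2 : ‖((y : padicIntegers l) : PadicAlgCl l)‖₊ ≤ 1 := (mem_padicIntegers_iff l).mp y.2
  exact_mod_cast h2

theorem norm_intCast_eq (m : ℤ) : ‖(m : PadicAlgCl l)‖ = ‖(m : ℚ_[l])‖ := by
  rw [← PadicAlgCl.norm_extends l (m : ℚ_[l]), map_intCast]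

theorem norm_natCast_prime_lt_one : ‖(l : PadicAlgCl l)‖ < 1 := by
  have h := norm_intCast_eq (l := l) (l : ℤ)
  rw [Int.cast_natCast, Int.cast_natCast] at h
  rw [h]
  exact Padic.norm_p_lt_one

variable {k : Type*} [Field k]

theorem norm_le_one_of_integer (τ : k →+* PadicAlgCl l) (x : 𝓞 k) : ‖τ (x : k)‖ ≤ 1 :=
  norm_le_one_of_isIntegral (map_isIntegral_int τ x.2)

/-- The prime of `𝓞 k` cut out by an embedding into `PadicAlgCl l`. -/
def primeOfEmb (τ : k →+* PadicAlgCl l) : Ideal (𝓞 k) where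
  carrier := {x | ‖τ (x : k)‖ < 1}
  add_mem' := by
    intro x y hx hy
    show ‖τ ((x : k) + (y : k))‖ < 1
    rw [map_add]
    exact lt_of_le_of_lt (PadicAlgCl.isNonarchimedean l _ _) (max_lt hx hy)
  zero_mem' := by
    show ‖τ (0 : k)‖ < 1
    rw [map_zero, norm_zero]
    exact one_pos
  smul_mem' := by
    intro c x hx
    show ‖τ ((c : k) * (x : k))‖ < 1
    rw [map_mul, norm_mul]
    calc ‖τ (c : k)‖ * ‖τ (x : k)‖ ≤ 1 * ‖τ (x : k)‖ :=
          mul_le_mul_of_nonneg_right (norm_le_one_of_integer τ c) (norm_nonneg _)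
      _ < 1 := by rw [one_mul]; exact hx

theorem mem_primeOfEmb {τ : k →+* PadicAlgCl l} {x : 𝓞 k} :
    x ∈ primeOfEmb τ ↔ ‖τ (x : k)‖ < 1 := Iff.rfl

theorem norm_eq_one_of_not_mem {τ : k →+* PadicAlgCl l} {x : 𝓞 k} (hx : x ∉ primeOfEmb τ) :
    ‖τ (x : k)‖ = 1 :=
  le_antisymm (norm_le_one_of_integer τ x) (not_lt.mp hx)

instance primeOfEmb_isPrime (τ : k →+* PadicAlgCl l) : (primeOfEmb τ).IsPrime := by
  refine ⟨?_, ?_⟩
  · rw [Ideal.ne_top_iff_one, mem_primeOfEmb]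
    show ¬ ‖τ (1 : k)‖ < 1
    rw [map_one, norm_one]
    exact lt_irrefl 1
  · intro x y hxy
    by_contra h
    push Not at h
    have hxy' : ‖τ ((x : k) * (y : k))‖ < 1 := hxy
    rw [map_mul, norm_mul, norm_eq_one_of_not_mem h.1,
      norm_eq_one_of_not_mem h.2, one_mul] at hxy'
    exact lt_irrefl 1 hxy'

theorem natCast_mem_primeOfEmb (τ : k →+* PadicAlgCl l) : (l : 𝓞 k) ∈ primeOfEmb τ := by
  rw [mem_primeOfEmb]
  show ‖τ ((l : ℕ) : k)‖ < 1
  rw [map_natCast]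
  exact norm_natCast_prime_lt_one

/-- The prime of an embedding only depends on its orbit under the local Galois group. -/
theorem primeOfEmb_comp (g : PadicAlgCl l ≃ₐ[ℚ_[l]] PadicAlgCl l) (τ : k →+* PadicAlgCl l) :
    primeOfEmb ((g : PadicAlgCl l →+* PadicAlgCl l).comp τ) = primeOfEmb τ := by
  ext x
  rw [mem_primeOfEmb, mem_primeOfEmb]
  have h : ‖g (τ (x : k))‖ = ‖τ (x : k)‖ :=
    congrArg NNReal.toReal (nnnorm_padicAlgCl_algEquiv l g (τ (x : k)))
  exact iff_of_eq (congrArg (· < 1) h)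

variable [NumberField k]

theorem primeOfEmb_ne_bot (τ : k →+* PadicAlgCl l) : primeOfEmb τ ≠ ⊥ := by
  intro h
  have h1 := natCast_mem_primeOfEmb τ
  rw [h, Ideal.mem_bot] at h1
  exact (Fact.out : l.Prime).ne_zero (by exact_mod_cast h1)

/-- The prime of an embedding, as a point of the height one spectrum. -/
def placeOfEmb (τ : k →+* PadicAlgCl l) : HeightOneSpectrum (𝓞 k) :=
  ⟨primeOfEmb τ, primeOfEmb_isPrime τ, primeOfEmb_ne_bot τ⟩

theorem mem_placeOfEmb {τ : k →+* PadicAlgCl l} {x : 𝓞 k} :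
    x ∈ (placeOfEmb τ).asIdeal ↔ ‖τ (x : k)‖ < 1 := Iff.rfl

/-- If `x` is a unit at all embeddings into `PadicAlgCl l`, its norm is prime to `l`. -/
theorem not_dvd_norm_of_forall_norm_eq_one (x : 𝓞 k)
    (h : ∀ τ : k →+* PadicAlgCl l, ‖τ (x : k)‖ = 1) : ¬ (l : ℤ) ∣ Algebra.norm ℤ x := by
  have h1 := Algebra.norm_eq_prod_embeddings ℚ (PadicAlgCl l) (x : k)
  rw [← Algebra.coe_norm_int, map_intCast] at h1
  have h2 := congrArg norm h1
  rw [norm_prod, norm_intCast_eq] at h2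
  have h3 : ∏ σ : k →ₐ[ℚ] PadicAlgCl l, ‖σ (x : k)‖ = 1 :=
    Finset.prod_eq_one fun σ _ => h σ.toRingHom
  rw [h3] at h2
  intro hdvd
  have h4 := (Padic.norm_intCast_lt_one_iff (p := l) (k := Algebra.norm ℤ x)).mpr hdvd
  rw [h2] at h4
  exact lt_irrefl 1 h4

/-- **(EX-dict).**  Every prime of `𝓞 k` above `l` is the prime of an embedding
`k →+* PadicAlgCl l`. -/
theorem exists_emb_of_prime (v : HeightOneSpectrum (𝓞 k)) (hlv : (l : 𝓞 k) ∈ v.asIdeal) :
    ∃ τ : k →+* PadicAlgCl l, primeOfEmb τ = v.asIdeal := by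
  classical
  by_contra hcon
  push Not at hcon
  have hl : l.Prime := Fact.out
  let τ₀ : k →+* PadicAlgCl l := (IsAlgClosed.lift : k →ₐ[ℚ] PadicAlgCl l).toRingHom
  have hnot : ¬ ((v.asIdeal : Set (𝓞 k)) ⊆
      ⋃ τ ∈ ((Finset.univ : Finset (k →+* PadicAlgCl l)) : Set (k →+* PadicAlgCl l)),
        ((primeOfEmb τ : Ideal (𝓞 k)) : Set (𝓞 k))) := by
    rw [Ideal.subset_union_prime τ₀ τ₀ (fun τ _ _ _ => primeOfEmb_isPrime τ)]
    rintro ⟨τ, -, hle⟩
    exact hcon τ (v.isMaximal.eq_of_le (primeOfEmb_isPrime τ).ne_top hle).symm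
  obtain ⟨x, hxv, hx⟩ := Set.not_subset.mp hnot
  have hx' : ∀ τ : k →+* PadicAlgCl l, x ∉ primeOfEmb τ := by
    intro τ hτ
    exact hx (Set.mem_biUnion (Finset.mem_coe.mpr (Finset.mem_univ τ)) hτ)
  have hN := not_dvd_norm_of_forall_norm_eq_one x fun τ => norm_eq_one_of_not_mem (hx' τ)
  have h1 : ((Ideal.absNorm (Ideal.span {x}) : ℕ) : 𝓞 k) ∈ v.asIdeal :=
    ((Ideal.span_singleton_le_iff_mem _).mpr hxv) (Ideal.absNorm_mem _)
  rw [Ideal.absNorm_span_singleton] at h1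
  have hcop : Nat.Coprime l (Algebra.norm ℤ x).natAbs :=
    (Nat.Prime.coprime_iff_not_dvd hl).mpr fun hd => hN (Int.natCast_dvd.mpr hd)
  obtain ⟨a, b, hab⟩ := Nat.isCoprime_iff_coprime.mpr hcop
  refine v.isPrime.ne_top ((Ideal.eq_top_iff_one _).mpr ?_)
  have h2 : (1 : 𝓞 k) = (a : 𝓞 k) * (l : 𝓞 k) + (b : 𝓞 k) * (((Algebra.norm ℤ x).natAbs : ℕ) : 𝓞 k) := by
    have := congrArg (Int.cast : ℤ → 𝓞 k) hab
    simp only [Int.cast_add, Int.cast_mul, Int.cast_natCast, Int.cast_one] at this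
    exact this.symm
  rw [h2]
  exact add_mem (Ideal.mul_mem_left _ _ hlv) (Ideal.mul_mem_left _ _ h1)

end Fermat.Agent.S55.H81
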