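import Fermat.Agent.S55.H81.AuxPrime
import Fermat.Agent.S55.H81.EmbPrime
import Fermat.Agent.S55.H8.KummerDefs

/-!
# Program C (S55), package C7, leaf (EX) "auxiliary places" (helper81): reduction and assembly

In helper88's embedding model (`H88/SemiLocalDefs`): places above `l` are orbits of embeddings
`τ : k →+* PadicAlgCl l`, the completion is `locField l τ`.

* `exists_integer_mul_pow`: (EX-red) `x ∈ kˣ` times a `p`-th power is a nonzero integer;
* `LocalPowOfResidue`, `ResidueOfLocalPow`: the two halves of the local statement (EX-loc)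
  ("`u` is a `p`-th power in `locField l τ` iff it is one modulo `primeOfEmb τ`", `l ≠ p`), as
  hypotheses;
* `exists_place_aux_of_local`: (EX-asm) `KummerHyp.exists_aux` on the objects of
  `H88/SemiLocalDefs`, from the two halves of (EX-loc).
-/

set_option autoImplicit false
set_option linter.style.haveILetI false

open NumberField Ideal IsDedekindDomain

namespace Fermat.Agent.S55.H81

open Fermat.Agent.S55.H88 Fermat.Agent.S55.H8

/-- (EX-loc), half `⟸`: for `l ≠ p` a unit at `τ` that is a `p`-th power modulo the prime of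
`τ` is a `p`-th power in the completion. -/
def LocalPowOfResidue (k : Type*) [Field k] [NumberField k] (p : ℕ) : Prop :=
  ∀ (l : ℕ) [Fact l.Prime], l ≠ p → ∀ (τ : k →+* PadicAlgCl l) (u n : 𝓞 k),
    u ∉ primeOfEmb τ → u - n ^ p ∈ primeOfEmb τ → ∃ z : locField l τ, z ^ p = locEmb l τ (u : k)

/-- (EX-loc), half `⟹`: a unit at `τ` that is a `p`-th power in the completion is a `p`-th
power modulo the prime of `τ`. -/
def ResidueOfLocalPow (k : Type*) [Field k] [NumberField k] (p : ℕ) : Prop :=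
  ∀ (l : ℕ) [Fact l.Prime], l ≠ p → ∀ (τ : k →+* PadicAlgCl l) (u : 𝓞 k) (z : locField l τ),
    u ∉ primeOfEmb τ → z ^ p = locEmb l τ (u : k) → ∃ c : 𝓞 k, u - c ^ p ∈ primeOfEmb τ

section

variable {k : Type*} [Field k] [NumberField k]

/-- (EX-red) Every nonzero element of `k` becomes a nonzero integer after multiplication by the
`p`-th power of a nonzero integer. -/
theorem exists_integer_mul_pow (x : k) (hx : x ≠ 0) {p : ℕ} (hp : 0 < p) :
    ∃ (s x' : 𝓞 k), s ≠ 0 ∧ x' ≠ 0 ∧ (x' : k) = x * (s : k) ^ p := by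
  obtain ⟨⟨r, s⟩, hrs⟩ := IsLocalization.surj (nonZeroDivisors (𝓞 k)) x
  have hs0 : (s : 𝓞 k) ≠ 0 := nonZeroDivisors.coe_ne_zero s
  have hsk : ((s : 𝓞 k) : k) ≠ 0 := fun h => hs0 (RingOfIntegers.ext h)
  have hrs' : x * ((s : 𝓞 k) : k) = (r : k) := hrs
  refine ⟨s, r * (s : 𝓞 k) ^ (p - 1), hs0, ?_, ?_⟩
  · refine mul_ne_zero ?_ (pow_ne_zero _ hs0)
    intro hr
    rw [hr] at hrs'
    exact (mul_ne_zero hx hsk) hrs'
  · show (r : k) * ((s : 𝓞 k) : k) ^ (p - 1) = x * ((s : 𝓞 k) : k) ^ p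
    rw [← hrs', mul_assoc, ← pow_succ', Nat.sub_add_cancel hp]

end

section Algebra

variable {k F : Type*} [Field k] [Field F]

theorem div_pow_eq_of_mul_pow (φ : k →+* F) {p : ℕ} {z : F} {x s x' : k} (h : x' = x * s ^ p)
    (hs : s ≠ 0) (hz : z ^ p = φ x') : (z / φ s) ^ p = φ x := by
  have hφs : φ s ≠ 0 := (map_ne_zero φ).mpr hs
  rw [div_pow, hz, h, map_mul, map_pow, mul_div_assoc, div_self (pow_ne_zero _ hφs), mul_one]

theorem mul_pow_eq_of_mul_pow (φ : k →+* F) {p : ℕ} {Z : F} {y s y' : k} (h : y' = y * s ^ p)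
    (hZ : Z ^ p = φ y) : (Z * φ s) ^ p = φ y' := by
  rw [mul_pow, hZ, h, map_mul, map_pow]

end Algebra

/-- **(EX-asm).**  `KummerHyp.exists_aux` in the embedding model, from the local statement
(EX-loc): for `a, y ∈ kˣ` with `y ∉ ⟨a⟩ · k^{×p}` and every bound `B` there are a prime `l > B`
and a place `w` of `k` above `l` at which `a` is a `p`-th power and `y` is not. -/
theorem exists_place_aux_of_local (k : Type*) [Field k] [NumberField k] {p : ℕ} (hp : p.Prime)
    {ζ : k} (hζ : IsPrimitiveRoot ζ p) (hpow : LocalPowOfResidue k p)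
    (hres : ResidueOfLocalPow k p) (a y : kˣ)
    (hay : y ∉ Subgroup.zpowers a ⊔ pPow p kˣ) (B : ℕ) :
    ∃ (l : ℕ) (_ : Fact l.Prime), B < l ∧ ∃ w : PlaceAbove l k,
      Units.map (locEmb l w.emb).toMonoidHom a ∈ pPow p (locField l w.emb)ˣ ∧
      Units.map (locEmb l w.emb).toMonoidHom y ∉ pPow p (locField l w.emb)ˣ := by
  classical
  obtain ⟨s₁, a', hs₁, ha', haa'⟩ := exists_integer_mul_pow (a : k) a.ne_zero hp.pos
  obtain ⟨s₂, y', hs₂, hy', hyy'⟩ := exists_integer_mul_pow (y : k) y.ne_zero hp.pos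
  have hs₁k : (s₁ : k) ≠ 0 := fun h => hs₁ (RingOfIntegers.ext h)
  have hs₂k : (s₂ : k) ≠ 0 := fun h => hs₂ (RingOfIntegers.ext h)
  -- the hypothesis of (EX-res)
  have hay' : ∀ (c : k) (j : ℤ), (y' : k) ≠ c ^ p * (a' : k) ^ j := by
    intro c j hcj
    have hc0 : c ≠ 0 := by
      rintro rfl
      rw [zero_pow hp.ne_zero, zero_mul] at hcj
      exact hy' (RingOfIntegers.ext hcj)
    apply hay
    have hw0 : c * (s₁ : k) ^ j / (s₂ : k) ≠ 0 :=
      div_ne_zero (mul_ne_zero hc0 (zpow_ne_zero _ hs₁k)) hs₂k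
    have hyeq : y = a ^ j * (Units.mk0 _ hw0) ^ p := by
      apply Units.ext
      rw [Units.val_mul, Units.val_zpow_eq_zpow_val, Units.val_pow_eq_pow_val, Units.val_mk0]
      have h1 : (y : k) * (s₂ : k) ^ p = c ^ p * ((a : k) * (s₁ : k) ^ p) ^ j := by
        rw [← hyy', ← haa']; exact hcj
      have h2 : ((a : k) * (s₁ : k) ^ p) ^ j = (a : k) ^ j * ((s₁ : k) ^ j) ^ p := by
        rw [mul_zpow, ← zpow_natCast ((s₁ : k)) p, ← zpow_mul, mul_comm (p : ℤ) j, zpow_mul,
          zpow_natCast]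
      rw [h2] at h1
      rw [div_pow, mul_pow, eq_comm, ← mul_div_assoc, div_eq_iff (pow_ne_zero _ hs₂k), h1]
      ring
    rw [hyeq]
    exact Subgroup.mul_mem_sup (Subgroup.zpow_mem_zpowers a j) (pow_mem_pPow p _)
  -- the prime
  obtain ⟨v, hBv, hvprime, hav, hyv, ⟨n, hn⟩, hnot⟩ :=
    exists_prime_pow_not_pow k hp hζ a' y' ha' hy' hay' (max B p)
  haveI hl : Fact (absNorm v.asIdeal).Prime := ⟨hvprime⟩
  have hlB : B < absNorm v.asIdeal := lt_of_le_of_lt (le_max_left _ _) hBv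
  have hlp : absNorm v.asIdeal ≠ p := fun h => by
    have := lt_of_le_of_lt (le_max_right B p) hBv
    omega
  obtain ⟨τ, hτ⟩ := exists_emb_of_prime (l := absNorm v.asIdeal) v (Ideal.absNorm_mem _)
  -- the representative of the place
  obtain ⟨g, hg⟩ : ∃ g : PadicAlgCl (absNorm v.asIdeal) ≃ₐ[ℚ_[absNorm v.asIdeal]]
      PadicAlgCl (absNorm v.asIdeal),
      (placeOf (absNorm v.asIdeal) τ).emb =
        (g : PadicAlgCl (absNorm v.asIdeal) →+* PadicAlgCl (absNorm v.asIdeal)).comp τ := by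
    have h1 : (placeSetoid (absNorm v.asIdeal) k).r τ
        (Quotient.out (placeOf (absNorm v.asIdeal) τ)) :=
      (placeSetoid (absNorm v.asIdeal) k).symm (Quotient.mk_out (s := placeSetoid _ k) τ)
    exact h1
  have hτ' : primeOfEmb (placeOf (absNorm v.asIdeal) τ).emb = v.asIdeal := by
    rw [hg, primeOfEmb_comp, hτ]
  refine ⟨absNorm v.asIdeal, hl, hlB, placeOf (absNorm v.asIdeal) τ, ?_, ?_⟩
  · -- `a` is a local `p`-th power
    obtain ⟨z, hz⟩ := hpow (absNorm v.asIdeal) hlp (placeOf (absNorm v.asIdeal) τ).emb a' n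
      (by rw [hτ']; exact hav) (by rw [hτ']; exact hn)
    have hz0 : z ≠ 0 := by
      rintro rfl
      rw [zero_pow hp.ne_zero] at hz
      exact (map_ne_zero (locEmb (absNorm v.asIdeal) (placeOf (absNorm v.asIdeal) τ).emb)).mpr
        (fun h => ha' (RingOfIntegers.ext h)) hz.symm
    have hφs : locEmb (absNorm v.asIdeal) (placeOf (absNorm v.asIdeal) τ).emb (s₁ : k) ≠ 0 :=
      (map_ne_zero _).mpr hs₁k
    exact ⟨Units.mk0 _ (div_ne_zero hz0 hφs), Units.ext (div_pow_eq_of_mul_pow _ haa' hs₁k hz)⟩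
  · -- `y` is not
    rintro ⟨Z, hZ⟩
    have hZ' : (Z : locField (absNorm v.asIdeal) (placeOf (absNorm v.asIdeal) τ).emb) ^ p
        = locEmb (absNorm v.asIdeal) (placeOf (absNorm v.asIdeal) τ).emb (y : k) :=
      congrArg Units.val hZ
    obtain ⟨c, hc⟩ := hres (absNorm v.asIdeal) hlp (placeOf (absNorm v.asIdeal) τ).emb y' _
      (by rw [hτ']; exact hyv) (mul_pow_eq_of_mul_pow _ hyy' hZ')
    rw [hτ'] at hc
    exact hnot ⟨c, hc⟩

end Fermat.Agent.S55.H81
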