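/-
S55 / Program C, package C9a, leaf (ORB) of the local isotropy leaf L5 (helper81).

For a rational prime `q` and a number field `L ⊆ ℚ̄`, the local Galois group `G_q` acts on
`G_ℚ ⧸ G_L` through `primeLocalToGlobal q`; the number of its orbits is at most the number of
primes of `𝓞 L` above `q`.

* `orbEmb q L γ : L →+* PadicAlgCl q`, `x ↦ padicEmbedding q (γ x)`;
* `orbPrime q L γ` : the prime of `𝓞 L` it defines (it lies in `H87.placesOver L {q}`);
* `orbPrime_mul_of_mem`, `orbPrime_local` : invariance under `G_L` on the right and under the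
  local group on the left;
* `exists_local_of_orbPrime_eq` : the same prime ⟹ the same double coset (helper83's
  `exists_algEquiv_of_heightOneOfEmb_eq`);
* `card_orbits_le` : the count, for the `MulAction.compHom` action.
-/
import Mathlib
import Fermat.Prelude.Def_ExtEndgame_ProductionDatum
import Fermat.Agent.S55.H83.DictInj
import Fermat.Agent.S55.H87.CountDefs

set_option autoImplicit false

open NumberField IsDedekindDomain ExtCitation

namespace Fermat.Agent.S55.H81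

noncomputable section

local notation "Qb" => AlgebraicClosure ℚ

section Emb

variable (q : ℕ) [Fact q.Prime] (L : IntermediateField ℚ Qb)

/-- The embedding `L → PadicAlgCl q`, `x ↦ padicEmbedding q (γ x)`. -/
def orbEmb (γ : Qb ≃ₐ[ℚ] Qb) : ↥L →+* PadicAlgCl q :=
  (((padicEmbedding q : Qb →ₐ[ℚ] PadicAlgCl q) : Qb →+* PadicAlgCl q).comp
    ((γ : Qb ≃+* Qb) : Qb →+* Qb)).comp (algebraMap ↥L Qb)

theorem orbEmb_apply (γ : Qb ≃ₐ[ℚ] Qb) (x : ↥L) :
    orbEmb q L γ x = padicEmbedding q (γ (x : Qb)) := rfl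

theorem orbEmb_mul_of_mem (γ : Qb ≃ₐ[ℚ] Qb) {h : Qb ≃ₐ[ℚ] Qb} (hh : h ∈ L.fixingSubgroup) :
    orbEmb q L (γ * h) = orbEmb q L γ := by
  refine RingHom.ext fun x => ?_
  rw [orbEmb_apply, orbEmb_apply, AlgEquiv.mul_apply,
    (IntermediateField.mem_fixingSubgroup_iff L h).1 hh (x : Qb) x.2]

theorem orbEmb_local (g : PadicAlgCl q ≃ₐ[ℚ_[q]] PadicAlgCl q) (γ : Qb ≃ₐ[ℚ] Qb) :
    orbEmb q L (localGaloisToGlobal q g * γ) =
      (g : PadicAlgCl q →+* PadicAlgCl q).comp (orbEmb q L γ) := by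
  refine RingHom.ext fun x => ?_
  rw [orbEmb_apply, AlgEquiv.mul_apply, padicEmbedding_localGaloisToGlobal]
  rfl

theorem eq_mul_of_orbEmb_eq {γ₁ γ₂ : Qb ≃ₐ[ℚ] Qb}
    (h : orbEmb q L γ₂ = orbEmb q L γ₁) : ∃ h ∈ L.fixingSubgroup, γ₂ = γ₁ * h := by
  refine ⟨γ₁⁻¹ * γ₂, ?_, by group⟩
  rw [IntermediateField.mem_fixingSubgroup_iff]
  intro x hx
  have h1 : padicEmbedding q (γ₂ x) = padicEmbedding q (γ₁ x) :=
    RingHom.congr_fun h ⟨x, hx⟩
  have h2 : γ₂ x = γ₁ x := (padicEmbedding q).toRingHom.injective h1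
  rw [AlgEquiv.mul_apply, h2]
  exact γ₁.symm_apply_apply x

end Emb

section Prime

variable (q : Nat.Primes) (L : IntermediateField ℚ Qb) [NumberField ↥L]

/-- The prime of `𝓞 L` defined by the embedding `x ↦ padicEmbedding q (γ x)`. -/
def orbPrime (γ : Qb ≃ₐ[ℚ] Qb) : HeightOneSpectrum (𝓞 ↥L) :=
  haveI : Fact (q : ℕ).Prime := ⟨q.2⟩
  H83.heightOneOfEmb (q : ℕ) (orbEmb (q : ℕ) L γ)

theorem orbPrime_mem_placesOver (γ : Qb ≃ₐ[ℚ] Qb) :
    orbPrime q L γ ∈ H87.placesOver ↥L {q} := by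
  have : Fact (q : ℕ).Prime := ⟨q.2⟩
  rw [H87.mem_placesOver]
  refine ⟨q, Finset.mem_singleton_self q, ?_⟩
  have h1 := H83.natCast_mem_primeOfEmb (q : ℕ) (orbEmb (q : ℕ) L γ)
  have h2 : (((q : ℕ) : ℤ) : 𝓞 ↥L) = ((q : ℕ) : 𝓞 ↥L) := by push_cast; rfl
  rw [h2]
  exact h1

theorem orbPrime_mul_of_mem (γ : Qb ≃ₐ[ℚ] Qb) {h : Qb ≃ₐ[ℚ] Qb} (hh : h ∈ L.fixingSubgroup) :
    orbPrime q L (γ * h) = orbPrime q L γ := by
  have : Fact (q : ℕ).Prime := ⟨q.2⟩
  rw [orbPrime, orbPrime, orbEmb_mul_of_mem (q : ℕ) L γ hh]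

theorem orbPrime_local (g : primeLocalGaloisGroup q) (γ : Qb ≃ₐ[ℚ] Qb) :
    orbPrime q L (primeLocalToGlobal q g * γ) = orbPrime q L γ := by
  have : Fact (q : ℕ).Prime := ⟨q.2⟩
  let g' : PadicAlgCl (q : ℕ) ≃ₐ[ℚ_[(q : ℕ)]] PadicAlgCl (q : ℕ) := g
  have h1 : orbEmb (q : ℕ) L (primeLocalToGlobal q g * γ) =
      (g' : PadicAlgCl (q : ℕ) →+* PadicAlgCl (q : ℕ)).comp (orbEmb (q : ℕ) L γ) :=
    orbEmb_local (q : ℕ) L g' γ
  rw [orbPrime, orbPrime, h1, H83.heightOneOfEmb_comp]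

/-- **(ORB), core.**  Two elements of `G_ℚ` defining the same prime of `𝓞 L` lie in the same
double coset `G_q \ G_ℚ / G_L`. -/
theorem exists_local_of_orbPrime_eq {γ₁ γ₂ : Qb ≃ₐ[ℚ] Qb}
    (h : orbPrime q L γ₁ = orbPrime q L γ₂) :
    ∃ g : primeLocalGaloisGroup q, ∃ h ∈ L.fixingSubgroup,
      γ₂ = primeLocalToGlobal q g * γ₁ * h := by
  have : Fact (q : ℕ).Prime := ⟨q.2⟩
  obtain ⟨g, hg⟩ := H83.exists_algEquiv_of_heightOneOfEmb_eq (q : ℕ)
    (orbEmb (q : ℕ) L γ₁) (orbEmb (q : ℕ) L γ₂) h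
  have h1 : orbEmb (q : ℕ) L γ₂ = orbEmb (q : ℕ) L (localGaloisToGlobal (q : ℕ) g * γ₁) := by
    rw [orbEmb_local, hg]
  obtain ⟨h, hh, h2⟩ := eq_mul_of_orbEmb_eq (q : ℕ) L h1
  exact ⟨g, h, hh, h2⟩

end Prime

section Count

/-- Abstract orbit count: a map to a finite set that is constant on the orbits and separates
them bounds the number of orbits. -/
theorem card_orbitRel_quotient_le {G X Y : Type*} [Group G] [MulAction G X] (T : Finset Y)
    (f : X → Y) (hf : ∀ x, f x ∈ T) (hinv : ∀ (g : G) (x : X), f (g • x) = f x)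
    (hinj : ∀ x y, f x = f y → ∃ g : G, g • x = y) :
    Nat.card (MulAction.orbitRel.Quotient G X) ≤ T.card := by
  classical
  let F : MulAction.orbitRel.Quotient G X → ↥T :=
    Quotient.lift (s := MulAction.orbitRel G X) (fun x => (⟨f x, hf x⟩ : ↥T)) (by
      intro a b hab
      obtain ⟨g, rfl⟩ := MulAction.mem_orbit_iff.1 (MulAction.orbitRel_apply.1 hab)
      exact Subtype.ext (hinv g b))
  have hF : Function.Injective F := by
    intro a b
    induction a using Quotient.inductionOn with | _ x => ?_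
    induction b using Quotient.inductionOn with | _ y => ?_
    intro h
    have h1 : f x = f y := congrArg Subtype.val h
    obtain ⟨g, hg⟩ := hinj y x h1.symm
    exact Quotient.sound (MulAction.orbitRel_apply.2 (MulAction.mem_orbit_iff.2 ⟨g, hg⟩))
  calc Nat.card (MulAction.orbitRel.Quotient G X) ≤ Nat.card ↥T := Nat.card_le_card_of_injective F hF
    _ = T.card := by rw [Nat.card_eq_fintype_card, Fintype.card_coe]

variable (q : Nat.Primes) (L : IntermediateField ℚ Qb) [NumberField ↥L]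

/-- The action of the local Galois group at `q` on `G_ℚ ⧸ G_L`, through `primeLocalToGlobal q`. -/
@[reducible] def orbAction :
    MulAction (primeLocalGaloisGroup q) ((Qb ≃ₐ[ℚ] Qb) ⧸ L.fixingSubgroup) :=
  MulAction.compHom _ (primeLocalToGlobal q)

/-- The prime of `𝓞 L` attached to a coset `γ G_L`. -/
def cosetPrime : (Qb ≃ₐ[ℚ] Qb) ⧸ L.fixingSubgroup → HeightOneSpectrum (𝓞 ↥L) :=
  Quotient.lift (s := QuotientGroup.leftRel L.fixingSubgroup) (orbPrime q L) (by
    intro a b hab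
    have h1 : a⁻¹ * b ∈ L.fixingSubgroup := QuotientGroup.leftRel_apply.1 hab
    have h2 := orbPrime_mul_of_mem q L a h1
    rw [mul_inv_cancel_left] at h2
    exact h2.symm)

theorem cosetPrime_mk (γ : Qb ≃ₐ[ℚ] Qb) :
    cosetPrime q L (γ : (Qb ≃ₐ[ℚ] Qb) ⧸ L.fixingSubgroup) = orbPrime q L γ := rfl

theorem cosetPrime_mem (x : (Qb ≃ₐ[ℚ] Qb) ⧸ L.fixingSubgroup) :
    cosetPrime q L x ∈ H87.placesOver ↥L {q} := by
  induction x using QuotientGroup.induction_on with | _ γ => ?_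
  exact orbPrime_mem_placesOver q L γ

/-- **(ORB).**  The local Galois group at `q` has at most `#{w ∣ q}` orbits on `G_ℚ ⧸ G_L`. -/
theorem card_orbits_le :
    Nat.card (@MulAction.orbitRel.Quotient (primeLocalGaloisGroup q)
      ((Qb ≃ₐ[ℚ] Qb) ⧸ L.fixingSubgroup) _ (orbAction q L)) ≤ (H87.placesOver ↥L {q}).card := by
  letI := orbAction q L
  refine card_orbitRel_quotient_le (H87.placesOver ↥L {q}) (cosetPrime q L)
    (cosetPrime_mem q L) ?_ ?_
  · intro g x
    induction x using QuotientGroup.induction_on with | _ γ => ?_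
    exact orbPrime_local q L g γ
  · intro x y
    induction x using QuotientGroup.induction_on with | _ γ₁ => ?_
    induction y using QuotientGroup.induction_on with | _ γ₂ => ?_
    intro h
    obtain ⟨g, h', hh', h2⟩ := exists_local_of_orbPrime_eq q L h
    refine ⟨g, ?_⟩
    show ((primeLocalToGlobal q g * γ₁ : Qb ≃ₐ[ℚ] Qb) : (Qb ≃ₐ[ℚ] Qb) ⧸ L.fixingSubgroup) = γ₂
    rw [h2, QuotientGroup.eq]
    simpa using hh'

end Count

end

end Fermat.Agent.S55.H81
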