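import Fermat.Agent.S55.H81.FullPlace
import Fermat.Agent.S55.H88.LayerDefs

/-!
# Program C (S55), package C8, leaf E1 "full place", layer form (helper81)

For the layer `K / k` of `H88/LayerDefs` (places `FinPlace k`, chosen extension `v.ext K`):

* `decompGroup_eq_top_of_restrict_eq`: fullness of the decomposition group only depends on the
  place of `k` below (for a normal extension);
* `exists_finPlace_decompGroup_eq_top`: a cyclic layer of `p`-power degree has finite places `v`
  above arbitrarily large primes with `decompGroup v.1 k (v.ext K) = ⊤`.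
-/

set_option autoImplicit false
set_option linter.style.haveILetI false

open NumberField IsDedekindDomain

namespace Fermat.Agent.S55.H81

open Fermat.Agent.S55.H88

attribute [local instance] factOfPrimes

section Conj

variable {q : ℕ} [Fact q.Prime] {k K : Type*} [Field k] [Field K] [Algebra k K]

/-- If `τ'` has full decomposition group and `τ''` restricts on `k` to a conjugate of the
restriction of `τ'`, then `τ''` has full decomposition group (`K / k` normal). -/
theorem decompGroup_eq_top_of_restrict_eq [Normal k K] (τ' τ'' : K →+* PadicAlgCl q)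
    (g : PadicAlgCl q ≃ₐ[ℚ_[q]] PadicAlgCl q)
    (h : τ''.comp (algebraMap k K)
      = (g : PadicAlgCl q →+* PadicAlgCl q).comp (τ'.comp (algebraMap k K)))
    (htop : decompGroup q k τ' = ⊤) : decompGroup q k τ'' = ⊤ := by
  -- `τ'' = g ∘ τ' ∘ s`
  obtain ⟨s, hs⟩ := exists_algEquiv_comp_eq q (k := k)
    ((g : PadicAlgCl q →+* PadicAlgCl q).comp τ') τ'' (by rw [h]; rfl)
  rw [Subgroup.eq_top_iff']
  intro t
  have hmem : s * t * s⁻¹ ∈ decompGroup q k τ' := by rw [htop]; exact Subgroup.mem_top _
  obtain ⟨h', hh'⟩ := hmem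
  refine ⟨g * h' * g⁻¹, RingHom.ext fun x => ?_⟩
  have h1 : τ' ((s * t * s⁻¹) (s x)) = h' (τ' (s x)) := RingHom.congr_fun hh' (s x)
  have h2 : (s * t * s⁻¹) (s x) = s (t x) := by
    show s (t (s⁻¹ (s x))) = s (t x)
    rw [show s⁻¹ (s x) = x from s.symm_apply_apply x]
  rw [h2] at h1
  have e1 : τ'' (t x) = g (τ' (s (t x))) := RingHom.congr_fun hs (t x)
  have e2 : τ'' x = g (τ' (s x)) := RingHom.congr_fun hs x
  show τ'' (t x) = g (h' (g⁻¹ (τ'' x)))
  rw [e1, e2, h1]
  congr 2
  exact (g.symm_apply_apply _).symm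

end Conj

/-- **(E1), layer form.**  A cyclic layer `K / k` of number fields of `p`-power degree has
finite places with full decomposition group above arbitrarily large primes. -/
theorem exists_finPlace_decompGroup_eq_top (k K : Type) [Field k] [NumberField k] [Field K]
    [NumberField K] [Algebra k K] [Normal k K] [IsCyclic (K ≃ₐ[k] K)] {p a : ℕ} (hp : p.Prime)
    (hcard : Nat.card (K ≃ₐ[k] K) = p ^ a) (B : ℕ) :
    ∃ v : FinPlace k, B < (v.1 : ℕ) ∧ decompGroup (v.1 : ℕ) k (v.ext K) = ⊤ := by
  obtain ⟨l, hl, hBl, τ', hτ'⟩ := exists_emb_decompGroup_eq_top k K hp hcard B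
  -- the place of `k` below `τ'`
  obtain ⟨g, hg⟩ : ∃ g : PadicAlgCl l ≃ₐ[ℚ_[l]] PadicAlgCl l,
      (placeOf l (τ'.comp (algebraMap k K))).emb =
        (g : PadicAlgCl l →+* PadicAlgCl l).comp (τ'.comp (algebraMap k K)) :=
    (placeSetoid l k).symm (Quotient.mk_out (s := placeSetoid l k) (τ'.comp (algebraMap k K)))
  refine ⟨⟨⟨l, hl.out⟩, placeOf l (τ'.comp (algebraMap k K))⟩, hBl, ?_⟩
  refine decompGroup_eq_top_of_restrict_eq τ' _ g ?_ hτ'
  exact (FinPlace.ext_comp K
    (⟨⟨l, hl.out⟩, placeOf l (τ'.comp (algebraMap k K))⟩ : FinPlace k)).trans hg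

end Fermat.Agent.S55.H81
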