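/-
S55 / Program C, package C9a, leaf (ORB) of the local isotropy leaf L5 (helper81):
`H87.OrbitCountLeaf`, verbatim, from the core `IsoOrb.lean`.
-/
import Fermat.Agent.S55.H81.IsoOrb
import Fermat.Agent.S55.H87.IsoLocalSpec

set_option autoImplicit false

open NumberField IsDedekindDomain ExtCitation

namespace Fermat.Agent.S55.H81

/-- **Leaf (ORB)** of C9a, verbatim. -/
theorem orbitCountLeaf : H87.OrbitCountLeaf := by
  intro q L _ _
  refine ⟨fun x => ⟨cosetPrime q L x, cosetPrime_mem q L x⟩, ?_⟩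
  intro x y
  induction x using QuotientGroup.induction_on with | _ γ₁ => ?_
  induction y using QuotientGroup.induction_on with | _ γ₂ => ?_
  intro h
  have h0 : orbPrime q L γ₁ = orbPrime q L γ₂ := congrArg Subtype.val h
  obtain ⟨g, h', hh', h2⟩ := exists_local_of_orbPrime_eq q L h0
  refine ⟨g, ?_⟩
  show ((primeLocalToGlobal q g * γ₁ : AlgebraicClosure ℚ ≃ₐ[ℚ] AlgebraicClosure ℚ) :
    (AlgebraicClosure ℚ ≃ₐ[ℚ] AlgebraicClosure ℚ) ⧸ L.fixingSubgroup) = γ₂
  rw [h2, QuotientGroup.eq]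
  simpa using hh'

end Fermat.Agent.S55.H81
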