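import Fermat.Agent.S55.H81.AuxPrimeCore

/-!
# Program C (S55), package C7, leaf (EX) "auxiliary places" (helper81): residue form

`exists_prime_pow_not_pow`: `k` a number field containing a primitive `p`-th root of unity,
`a y : 𝓞 k` nonzero with `y ∉ ⟨a⟩ · k^{×p}`, `B` a bound.  Then there is a prime `v` of `𝓞 k` of
degree one, of residue characteristic `> B`, not dividing `a y`, such that `a` is a `p`-th power
modulo `v` and `y` is not.

The Galois extension `L / ℚ` required by the core is the splitting field, inside an algebraic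
closure of `k`, of the product of the minimal polynomials of a primitive element of `k`, of a
`p`-th root of `a` and of a `p`-th root of `y`.
-/

set_option autoImplicit false
set_option linter.style.haveILetI false

open NumberField Ideal IsDedekindDomain Polynomial

namespace Fermat.Agent.S55.H81

open scoped IntermediateField

/-- **(EX-res).** -/
theorem exists_prime_pow_not_pow (k : Type*) [Field k] [NumberField k] {p : ℕ} (hp : p.Prime)
    {ζ : k} (hζ : IsPrimitiveRoot ζ p) (a y : 𝓞 k) (ha : a ≠ 0) (hy : y ≠ 0)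
    (hay : ∀ (c : k) (j : ℤ), (y : k) ≠ c ^ p * (a : k) ^ j) (B : ℕ) :
    ∃ v : HeightOneSpectrum (𝓞 k), B < absNorm v.asIdeal ∧ (absNorm v.asIdeal).Prime ∧
      a ∉ v.asIdeal ∧ y ∉ v.asIdeal ∧ (∃ n : 𝓞 k, a - n ^ p ∈ v.asIdeal) ∧
      ¬ ∃ c : 𝓞 k, y - c ^ p ∈ v.asIdeal := by
  classical
  obtain ⟨α₀, hα₀⟩ := IsAlgClosed.exists_pow_nat_eq (algebraMap k (AlgebraicClosure k) (a : k))
    hp.pos
  obtain ⟨β₀, hβ₀⟩ := IsAlgClosed.exists_pow_nat_eq (algebraMap k (AlgebraicClosure k) (y : k))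
    hp.pos
  obtain ⟨θ, hθ⟩ := Field.exists_primitive_element ℚ k
  haveI : Algebra.IsAlgebraic ℚ (AlgebraicClosure k) :=
    Algebra.IsAlgebraic.trans ℚ k (AlgebraicClosure k)
  have hint : ∀ x : AlgebraicClosure k, IsIntegral ℚ x := fun x => Algebra.IsIntegral.isIntegral x
  set f : ℚ[X] := minpoly ℚ (algebraMap k (AlgebraicClosure k) θ) * minpoly ℚ α₀ * minpoly ℚ β₀
    with hf
  have hf0 : f ≠ 0 :=
    mul_ne_zero (mul_ne_zero (minpoly.ne_zero (hint _)) (minpoly.ne_zero (hint _)))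
      (minpoly.ne_zero (hint _))
  set L₀ : IntermediateField ℚ (AlgebraicClosure k) :=
    IntermediateField.adjoin ℚ (f.rootSet (AlgebraicClosure k)) with hL₀
  haveI hsplit : f.IsSplittingField ℚ L₀ :=
    IntermediateField.adjoin_rootSet_isSplittingField (IsAlgClosed.splits _)
  have hfd : FiniteDimensional ℚ L₀ := IsSplittingField.finiteDimensional L₀ f
  have hnormal₁ : Normal ℚ L₀ := Normal.of_isSplittingField f
  haveI : NumberField L₀ := by
    refine @NumberField.mk _ _ inferInstance ?_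
    convert hfd
  haveI : Normal ℚ L₀ := hnormal₁
  haveI : IsGalois ℚ L₀ := ⟨⟩
  -- membership
  have hroot : ∀ x : AlgebraicClosure k, minpoly ℚ x ∣ f → x ∈ L₀ := by
    intro x hx
    refine IntermediateField.subset_adjoin ℚ _ ?_
    rw [Polynomial.mem_rootSet]
    refine ⟨hf0, ?_⟩
    obtain ⟨g, hg⟩ := hx
    rw [hg, map_mul, minpoly.aeval, zero_mul]
  have hθmem : algebraMap k (AlgebraicClosure k) θ ∈ L₀ :=
    hroot _ (Dvd.dvd.mul_right (Dvd.intro _ rfl) _)
  have hαmem : α₀ ∈ L₀ := hroot _ (Dvd.dvd.mul_right (Dvd.intro_left _ rfl) _)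
  have hβmem : β₀ ∈ L₀ := hroot _ (Dvd.intro_left _ rfl)
  have hk : ∀ x : k, algebraMap k (AlgebraicClosure k) x ∈ L₀ := by
    intro x
    have hx : x ∈ (⊤ : IntermediateField ℚ k) := IntermediateField.mem_top
    rw [← hθ] at hx
    have hle : ℚ⟮θ⟯ ≤ L₀.comap (IsScalarTower.toAlgHom ℚ k (AlgebraicClosure k)) := by
      rw [IntermediateField.adjoin_simple_le_iff]
      exact hθmem
    exact hle hx
  let φ : k →+* ↥L₀ :=
    { toFun := fun x => ⟨algebraMap k (AlgebraicClosure k) x, hk x⟩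
      map_one' := Subtype.ext (map_one _)
      map_mul' := fun x y => Subtype.ext (map_mul _ _ _)
      map_zero' := Subtype.ext (map_zero _)
      map_add' := fun x y => Subtype.ext (map_add _ _ _) }
  letI : Algebra k ↥L₀ := φ.toAlgebra
  have hφ : ∀ x : k, algebraMap k ↥L₀ x = ⟨algebraMap k (AlgebraicClosure k) x, hk x⟩ :=
    fun _ => rfl
  have hαL : (⟨α₀, hαmem⟩ : ↥L₀) ^ p = algebraMap k ↥L₀ (a : k) := Subtype.ext hα₀
  have hβL : (⟨β₀, hβmem⟩ : ↥L₀) ^ p = algebraMap k ↥L₀ (y : k) := Subtype.ext hβ₀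
  have hαint : IsIntegral ℤ (⟨α₀, hαmem⟩ : ↥L₀) := by
    refine IsIntegral.of_pow hp.pos ?_
    rw [hαL]
    exact map_isIntegral_int (algebraMap k ↥L₀) a.2
  have hβint : IsIntegral ℤ (⟨β₀, hβmem⟩ : ↥L₀) := by
    refine IsIntegral.of_pow hp.pos ?_
    rw [hβL]
    exact map_isIntegral_int (algebraMap k ↥L₀) y.2
  exact exists_prime_pow_not_pow_of_galois (L := ↥L₀) hp hζ a y ha hy
    (⟨⟨α₀, hαmem⟩, hαint⟩ : 𝓞 ↥L₀) (⟨⟨β₀, hβmem⟩, hβint⟩ : 𝓞 ↥L₀)
    (RingOfIntegers.ext hαL) (RingOfIntegers.ext hβL) hay B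

end Fermat.Agent.S55.H81
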