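import Fermat.Agent.S41.H70.FrobDensity

/-!
# Program C (S55), package C7, leaf (EX) "auxiliary places" (helper81): the arithmetic core

`k` a number field containing a primitive `p`-th root of unity, `a y : 𝓞 k` nonzero with
`y ∉ ⟨a⟩ · k^{×p}`.  Then there are primes `v` of `𝓞 k` of degree one and arbitrarily large
residue characteristic such that `a` is a `p`-th power modulo `v` and `y` is not.

Route: Frobenius density (landed `S41/H70.exists_frobenius_not_mem`, sub-additive form, one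
subgroup of index `p`) in a finite Galois extension `L / ℚ` containing `k`, `a^{1/p}`, `y^{1/p}`.

* `exists_zpow_eq_of_ker_le`: two homomorphisms into a group of prime order with nested kernels;
* `kummerHom`, `exists_zpow_mul_fixed`: the Kummer pairing `σ ↦ σ γ / γ` and the Kummer lemma;
* `exists_prime_pow_not_pow_of_galois`: the core, for a given `L`.
-/

set_option autoImplicit false
set_option linter.style.haveILetI false

open NumberField Ideal IsDedekindDomain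

namespace Fermat.Agent.S55.H81

open Fermat.Agent.S41.H70

section Group

/-- Two homomorphisms into the powers of an element `ζ` with `ζ ^ p = 1`, `p` prime, whose
kernels are nested, differ by an exponent. -/
theorem exists_zpow_eq_of_ker_le {G M : Type*} [Group G] [CommGroup M] {p : ℕ} (hp : p.Prime)
    {ζ : M} (hζ : ζ ^ p = 1) (φ ψ : G →* M) (hφ : ∀ g, ∃ i : ℤ, φ g = ζ ^ i)
    (hψ : ∀ g, ∃ i : ℤ, ψ g = ζ ^ i) (hker : ∀ g, φ g = 1 → ψ g = 1) :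
    ∃ j : ℤ, ∀ g, ψ g = φ g ^ j := by
  by_cases h : ∀ g, φ g = 1
  · exact ⟨0, fun g => by rw [zpow_zero]; exact hker g (h g)⟩
  push Not at h
  obtain ⟨g₀, hg₀⟩ := h
  obtain ⟨s, hs⟩ := hφ g₀
  obtain ⟨t, ht⟩ := hψ g₀
  have hζz : ∀ m : ℤ, ζ ^ ((p : ℤ) * m) = 1 := fun m => by
    rw [zpow_mul, zpow_natCast, hζ, one_zpow]
  have hps : ¬ (p : ℤ) ∣ s := by
    rintro ⟨m, rfl⟩
    exact hg₀ (by rw [hs, hζz])
  have hcop : IsCoprime (p : ℤ) s :=
    ((Nat.prime_iff_prime_int.mp hp).irreducible.coprime_iff_not_dvd).mpr hps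
  obtain ⟨y, x, hxy⟩ := hcop
  refine ⟨t * x, fun g => ?_⟩
  obtain ⟨u, hu⟩ := hφ g
  obtain ⟨w, hw⟩ := hψ g
  have h1 : φ (g₀ ^ (-(u * x)) * g) = 1 := by
    rw [map_mul, map_zpow, hs, hu, ← zpow_mul, ← zpow_add]
    have : s * -(u * x) + u = (p : ℤ) * (u * y) := by linear_combination (-u) * hxy
    rw [this, hζz]
  have h2 := hker _ h1
  rw [map_mul, map_zpow, ht, hw, ← zpow_mul, ← zpow_add] at h2
  rw [hw, hu, ← zpow_mul]
  have h3 : u * (t * x) = -(t * -(u * x) + w) + w := by ring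
  rw [h3, zpow_add, zpow_neg, h2, inv_one, one_mul]

end Group

section Kummer

variable {F L : Type*} [Field F] [Field L] [Algebra F L]

/-- The Kummer cocycle `σ ↦ σ γ / γ`: a homomorphism on a subgroup fixing the `p`-th roots of
unity and `γ ^ p`. -/
noncomputable def kummerHom (p : ℕ) (S : Subgroup (L ≃ₐ[F] L)) (γ : L) (hγ0 : γ ≠ 0)
    (hμ : ∀ σ ∈ S, ∀ x : L, x ^ p = 1 → σ x = x) (hγ : ∀ σ ∈ S, σ (γ ^ p) = γ ^ p) :
    S →* Lˣ where
  toFun σ := Units.mk0 ((σ : L ≃ₐ[F] L) γ / γ)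
    (div_ne_zero ((map_ne_zero_iff _ (σ : L ≃ₐ[F] L).injective).mpr hγ0) hγ0)
  map_one' := by
    apply Units.ext
    show ((1 : S) : L ≃ₐ[F] L) γ / γ = 1
    simp [hγ0]
  map_mul' σ τ := by
    apply Units.ext
    show ((σ * τ : S) : L ≃ₐ[F] L) γ / γ = ((σ : L ≃ₐ[F] L) γ / γ) * ((τ : L ≃ₐ[F] L) γ / γ)
    have hη : ((τ : L ≃ₐ[F] L) γ / γ) ^ p = 1 := by
      rw [div_pow, ← map_pow, hγ τ τ.2, div_self (pow_ne_zero _ hγ0)]
    have h1 : (σ : L ≃ₐ[F] L) ((τ : L ≃ₐ[F] L) γ / γ) = (τ : L ≃ₐ[F] L) γ / γ := hμ σ σ.2 _ hη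
    have h2 : (τ : L ≃ₐ[F] L) γ = ((τ : L ≃ₐ[F] L) γ / γ) * γ := by
      rw [div_mul_cancel₀ _ hγ0]
    have h3 : ((σ * τ : S) : L ≃ₐ[F] L) γ = (σ : L ≃ₐ[F] L) ((τ : L ≃ₐ[F] L) γ) := rfl
    rw [h3]
    conv_lhs => rw [h2, map_mul, h1]
    ring

theorem kummerHom_apply (p : ℕ) (S : Subgroup (L ≃ₐ[F] L)) (γ : L) (hγ0 : γ ≠ 0)
    (hμ : ∀ σ ∈ S, ∀ x : L, x ^ p = 1 → σ x = x) (hγ : ∀ σ ∈ S, σ (γ ^ p) = γ ^ p) (σ : S) :
    ((kummerHom p S γ hγ0 hμ hγ σ : Lˣ) : L) = (σ : L ≃ₐ[F] L) γ / γ := rfl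

theorem kummerHom_pow (p : ℕ) (S : Subgroup (L ≃ₐ[F] L)) (γ : L) (hγ0 : γ ≠ 0)
    (hμ : ∀ σ ∈ S, ∀ x : L, x ^ p = 1 → σ x = x) (hγ : ∀ σ ∈ S, σ (γ ^ p) = γ ^ p) (σ : S) :
    ((kummerHom p S γ hγ0 hμ hγ σ : Lˣ) : L) ^ p = 1 := by
  rw [kummerHom_apply, div_pow, ← map_pow, hγ σ σ.2, div_self (pow_ne_zero _ hγ0)]

/-- **Kummer lemma.**  If every automorphism in `S` (a group fixing `ζ`, `α ^ p`, `β ^ p`) that
fixes `α` also fixes `β`, then `β * α ^ (-j)` is fixed by `S` for some `j`. -/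
theorem exists_zpow_mul_fixed {p : ℕ} (hp : p.Prime) (S : Subgroup (L ≃ₐ[F] L)) {ζ : L}
    (hζ : IsPrimitiveRoot ζ p) (hζS : ∀ σ ∈ S, σ ζ = ζ) {α β : L} (hα0 : α ≠ 0) (hβ0 : β ≠ 0)
    (hα : ∀ σ ∈ S, σ (α ^ p) = α ^ p) (hβ : ∀ σ ∈ S, σ (β ^ p) = β ^ p)
    (hker : ∀ σ ∈ S, σ α = α → σ β = β) :
    ∃ j : ℤ, ∀ σ ∈ S, σ (β * α ^ (-j)) = β * α ^ (-j) := by
  haveI : NeZero p := ⟨hp.ne_zero⟩
  have hμ : ∀ σ ∈ S, ∀ x : L, x ^ p = 1 → σ x = x := by
    intro σ hσ x hx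
    obtain ⟨i, -, rfl⟩ := hζ.eq_pow_of_pow_eq_one hx
    rw [map_pow, hζS σ hσ]
  have hζ0 : ζ ≠ 0 := hζ.ne_zero hp.ne_zero
  set ζu : Lˣ := Units.mk0 ζ hζ0 with hζu
  have hζup : ζu ^ p = 1 := by
    apply Units.ext
    simp [hζu, hζ.pow_eq_one]
  have hval : ∀ (γ : L) (hγ0 : γ ≠ 0) (hγ : ∀ σ ∈ S, σ (γ ^ p) = γ ^ p) (g : S),
      ∃ i : ℤ, kummerHom p S γ hγ0 hμ hγ g = ζu ^ i := by
    intro γ hγ0 hγ g
    obtain ⟨i, -, hi⟩ := hζ.eq_pow_of_pow_eq_one (kummerHom_pow p S γ hγ0 hμ hγ g)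
    refine ⟨(i : ℤ), Units.ext ?_⟩
    rw [zpow_natCast, Units.val_pow_eq_pow_val, ← hi]
    rfl
  obtain ⟨j, hj⟩ := exists_zpow_eq_of_ker_le hp hζup (kummerHom p S α hα0 hμ hα)
    (kummerHom p S β hβ0 hμ hβ) (hval α hα0 hα) (hval β hβ0 hβ) (by
      intro g hg
      have h1 : (g : L ≃ₐ[F] L) α / α = 1 := by
        rw [← kummerHom_apply p S α hα0 hμ hα g, hg, Units.val_one]
      have h2 : (g : L ≃ₐ[F] L) α = α := by
        rwa [div_eq_one_iff_eq hα0] at h1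
      have h3 := hker g g.2 h2
      apply Units.ext
      rw [kummerHom_apply, h3, div_self hβ0, Units.val_one])
  refine ⟨j, fun σ hσ => ?_⟩
  have h1 := congrArg (fun u : Lˣ => (u : L)) (hj ⟨σ, hσ⟩)
  simp only [kummerHom_apply, Units.val_zpow_eq_zpow_val] at h1
  -- `σ β / β = (σ α / α) ^ j`
  have hσα0 : σ α ≠ 0 := (map_ne_zero_iff _ σ.injective).mpr hα0
  rw [map_mul, map_zpow₀]
  have h2 : σ β = (σ α / α) ^ j * β := by
    rw [← h1, div_mul_cancel₀ _ hβ0]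
  rw [h2, div_zpow, zpow_neg, zpow_neg]
  field_simp

end Kummer

section Core

variable {k L : Type*} [Field k] [NumberField k] [Field L] [NumberField L] [IsGalois ℚ L]
  [Algebra k L]

omit [NumberField k] [NumberField L] [IsGalois ℚ L] in
theorem coe_algebraMap_ringOfIntegers (x : 𝓞 k) :
    ((algebraMap (𝓞 k) (𝓞 L) x : 𝓞 L) : L) = algebraMap k L (x : k) := rfl

/-- A root of unity `η ≠ 1` of prime order `p` with `η - 1 ∈ P` forces `p ∈ P`. -/
theorem natCast_mem_of_sub_one_mem {R : Type*} [CommRing R] [IsDomain R] (P : Ideal R) {p : ℕ}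
    {η : R} (hη : η ^ p = 1) (hη1 : η ≠ 1) (hmem : η - 1 ∈ P) : (p : R) ∈ P := by
  have hsum : ∑ i ∈ Finset.range p, η ^ i = 0 := by
    have h1 : (η - 1) * ∑ i ∈ Finset.range p, η ^ i = 0 := by
      rw [mul_geom_sum, hη, sub_self]
    exact (mul_eq_zero.mp h1).resolve_left (sub_ne_zero.mpr hη1)
  have hp' : (p : R) = - ∑ i ∈ Finset.range p, (η ^ i - 1) := by
    rw [Finset.sum_sub_distrib, hsum]
    simp
  rw [hp']
  refine P.neg_mem (P.sum_mem fun i _ => ?_)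
  obtain ⟨q, hq⟩ := sub_dvd_pow_sub_pow η 1 i
  rw [one_pow] at hq
  rw [hq]
  exact P.mul_mem_right _ hmem

/-- **(EX-res), core.**  `L / ℚ` a finite Galois extension containing `k`, a `p`-th root `α` of
`a` and a `p`-th root `β` of `y`. -/
theorem exists_prime_pow_not_pow_of_galois {p : ℕ} (hp : p.Prime) {ζ : k}
    (hζ : IsPrimitiveRoot ζ p) (a y : 𝓞 k) (ha : a ≠ 0) (hy : y ≠ 0) (α β : 𝓞 L)
    (hα : α ^ p = algebraMap (𝓞 k) (𝓞 L) a) (hβ : β ^ p = algebraMap (𝓞 k) (𝓞 L) y)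
    (hay : ∀ (c : k) (j : ℤ), (y : k) ≠ c ^ p * (a : k) ^ j) (B : ℕ) :
    ∃ v : HeightOneSpectrum (𝓞 k), B < absNorm v.asIdeal ∧ (absNorm v.asIdeal).Prime ∧
      a ∉ v.asIdeal ∧ y ∉ v.asIdeal ∧ (∃ n : 𝓞 k, a - n ^ p ∈ v.asIdeal) ∧
      ¬ ∃ c : 𝓞 k, y - c ^ p ∈ v.asIdeal := by
  classical
  haveI : NeZero p := ⟨hp.ne_zero⟩
  have hinj : Function.Injective (algebraMap k L) := (algebraMap k L).injective
  have hinjO : Function.Injective (algebraMap (𝓞 k) (𝓞 L)) := RingOfIntegers.algebraMap.injective k L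
  -- the elements in `L`
  have hαL : (α : L) ^ p = algebraMap k L (a : k) :=
    congrArg (fun z : 𝓞 L => (z : L)) hα
  have hβL : (β : L) ^ p = algebraMap k L (y : k) :=
    congrArg (fun z : 𝓞 L => (z : L)) hβ
  have ha0 : (a : k) ≠ 0 := fun h => ha (RingOfIntegers.ext h)
  have hy0 : (y : k) ≠ 0 := fun h => hy (RingOfIntegers.ext h)
  have hα0 : (α : L) ≠ 0 := by
    intro h
    rw [h, zero_pow hp.ne_zero] at hαL
    exact ha0 (hinj (by rw [← hαL, map_zero]))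
  have hβ0 : (β : L) ≠ 0 := by
    intro h
    rw [h, zero_pow hp.ne_zero] at hβL
    exact hy0 (hinj (by rw [← hβL, map_zero]))
  have hβO0 : β ≠ 0 := fun h => hβ0 (by rw [h]; rfl)
  set ζL : L := algebraMap k L ζ with hζLdef
  have hζL : IsPrimitiveRoot ζL p := hζ.map_of_injective hinj
  -- the subgroups
  set K : IntermediateField ℚ L := (IsScalarTower.toAlgHom ℚ k L).fieldRange with hK
  have hmemK : ∀ x : k, algebraMap k L x ∈ K := fun x => ⟨x, rfl⟩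
  set Gk : Subgroup (L ≃ₐ[ℚ] L) := K.fixingSubgroup with hGk
  have hGkfix : ∀ σ ∈ Gk, ∀ x : k, σ (algebraMap k L x) = algebraMap k L x := fun σ hσ x =>
    (IntermediateField.mem_fixingSubgroup_iff K σ).mp hσ _ (hmemK x)
  set H : Subgroup (L ≃ₐ[ℚ] L) := Gk ⊓ MulAction.stabilizer (L ≃ₐ[ℚ] L) (α : L) with hH
  set H' : Subgroup (L ≃ₐ[ℚ] L) := H ⊓ MulAction.stabilizer (L ≃ₐ[ℚ] L) (β : L) with hH'
  have hHGk : H ≤ Gk := inf_le_left
  have hH'H : H' ≤ H := inf_le_left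
  have hHα : ∀ σ ∈ H, σ (α : L) = α := fun σ hσ =>
    MulAction.mem_stabilizer_iff.mp (Subgroup.mem_inf.mp hσ).2
  have hH'β : ∀ σ ∈ H', σ (β : L) = β := fun σ hσ =>
    MulAction.mem_stabilizer_iff.mp (Subgroup.mem_inf.mp hσ).2
  have hζS : ∀ σ ∈ Gk, σ ζL = ζL := fun σ hσ => hGkfix σ hσ ζ
  have hμ : ∀ σ ∈ Gk, ∀ x : L, x ^ p = 1 → σ x = x := by
    intro σ hσ x hx
    obtain ⟨i, -, rfl⟩ := hζL.eq_pow_of_pow_eq_one hx
    rw [map_pow, hζS σ hσ]
  have hαfix : ∀ σ ∈ Gk, σ ((α : L) ^ p) = (α : L) ^ p := fun σ hσ => by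
    rw [hαL]; exact hGkfix σ hσ _
  have hβfix : ∀ σ ∈ Gk, σ ((β : L) ^ p) = (β : L) ^ p := fun σ hσ => by
    rw [hβL]; exact hGkfix σ hσ _
  -- normality
  have hnormal : ∀ τ ∈ H, ∀ σ ∈ H', τ * σ * τ⁻¹ ∈ H' := by
    intro τ hτ σ hσ
    refine Subgroup.mem_inf.mpr ⟨H.mul_mem (H.mul_mem hτ (hH'H hσ)) (H.inv_mem hτ),
      MulAction.mem_stabilizer_iff.mpr ?_⟩
    show τ (σ (τ⁻¹ (β : L))) = β
    have hτinv : τ⁻¹ ∈ Gk := Gk.inv_mem (hHGk hτ)
    set η : L := τ⁻¹ (β : L) / β with hη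
    have hηp : η ^ p = 1 := by
      rw [hη, div_pow, ← map_pow, hβfix _ hτinv, div_self (pow_ne_zero _ hβ0)]
    have h1 : τ⁻¹ (β : L) = η * β := by rw [hη, div_mul_cancel₀ _ hβ0]
    have h2 : σ (τ⁻¹ (β : L)) = τ⁻¹ (β : L) := by
      rw [h1, map_mul, hμ σ (hHGk (hH'H hσ)) η hηp, hH'β σ hσ]
    rw [h2]
    show (τ * τ⁻¹) (β : L) = β
    rw [mul_inv_cancel]
    rfl
  -- `H' ≠ H`
  have hne : ¬ H ≤ H' := by
    intro hle
    obtain ⟨jj, hjj⟩ := exists_zpow_mul_fixed hp Gk hζL hζS hα0 hβ0 hαfix hβfix (by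
      intro σ hσ hσα
      have h1 : σ ∈ H := Subgroup.mem_inf.mpr ⟨hσ, MulAction.mem_stabilizer_iff.mpr hσα⟩
      exact hH'β σ (hle h1))
    have hmem : (β : L) * (α : L) ^ (-jj) ∈ IntermediateField.fixedField Gk :=
      (IntermediateField.mem_fixedField_iff Gk _).mpr hjj
    rw [hGk, IsGalois.fixedField_fixingSubgroup K] at hmem
    obtain ⟨c, hc⟩ := hmem
    have hc' : algebraMap k L c = (β : L) * (α : L) ^ (-jj) := hc
    refine hay c jj (hinj ?_)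
    rw [map_mul, map_pow, map_zpow₀, hc', ← hαL, ← hβL, mul_pow, ← zpow_natCast ((α : L) ^ (-jj)) p,
      ← zpow_mul, ← zpow_natCast (α : L) p, ← zpow_mul, mul_assoc, ← zpow_add₀ hα0]
    have : -jj * (p : ℤ) + (p : ℤ) * jj = 0 := by ring
    rw [this, zpow_zero, mul_one]
  have hsum : ∑ _i : Unit, (1 : ℝ) / ((H'.relIndex H : ℕ) : ℝ) < 1 := by
    have h1 : H'.relIndex H ≠ 1 := fun h => hne (Subgroup.relIndex_eq_one.mp h)
    simp only [Finset.univ_unique, Finset.sum_singleton]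
    rcases Nat.eq_zero_or_pos (H'.relIndex H) with h0 | hpos
    · rw [h0]; simp
    · have h2 : 2 ≤ H'.relIndex H := by omega
      rw [div_lt_one (by exact_mod_cast hpos)]
      exact_mod_cast h2
  -- the Frobenius element
  set B' : ℕ := B + absNorm (span {a}) + absNorm (span {y}) + absNorm (span {(p : 𝓞 L)}) with hB'
  obtain ⟨l, P, σ, hl, hB'l, hP, hlP, hσH, hσH', hfrob⟩ :=
    exists_frobenius_not_mem H (fun _ : Unit => H') (fun _ => hH'H) (fun _ => hnormal) hsum B'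
  have hσGk : σ ∈ Gk := hHGk hσH
  have hσfixO : ∀ x : 𝓞 k, σ • algebraMap (𝓞 k) (𝓞 L) x = algebraMap (𝓞 k) (𝓞 L) x := fun x =>
    RingOfIntegers.ext (hGkfix σ hσGk (x : k))
  -- the prime of `k`
  set v : Ideal (𝓞 k) := P.comap (algebraMap (𝓞 k) (𝓞 L)) with hv
  haveI hvprime : v.IsPrime := Ideal.comap_isPrime _ _
  have hlv : (l : 𝓞 k) ∈ v := by
    rw [hv, Ideal.mem_comap, map_natCast]; exact hlP
  have hvbot : v ≠ ⊥ := by
    intro h
    rw [h, Ideal.mem_bot] at hlv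
    exact hl.ne_zero (by exact_mod_cast hlv)
  have hvnorm : absNorm v = l := by
    refine absNorm_eq_of_pow_sub_mem v l hl hlv fun x => ?_
    rw [hv, Ideal.mem_comap, map_sub, map_pow]
    have h1 := hfrob (algebraMap (𝓞 k) (𝓞 L) x)
    rw [hσfixO] at h1
    have h2 := P.neg_mem h1
    rwa [neg_sub] at h2
  have hav : a ∉ v :=
    not_mem_of_absNorm_lt v l hl hlv a ha (by omega)
  have hyv : y ∉ v :=
    not_mem_of_absNorm_lt v l hl hlv y hy (by omega)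
  have hpP : (p : 𝓞 L) ∉ P :=
    not_mem_of_absNorm_lt P l hl hlP (p : 𝓞 L) (by exact_mod_cast hp.ne_zero) (by omega)
  refine ⟨⟨v, hvprime, hvbot⟩, by rw [hvnorm]; omega, by rw [hvnorm]; exact hl, hav, hyv, ?_, ?_⟩
  · -- `a` is a `p`-th power modulo `v`
    have hαmem : (α : L) ∈ IntermediateField.fixedField H :=
      (IntermediateField.mem_fixedField_iff H _).mpr hHα
    obtain ⟨α', hα'⟩ := exists_algebraMap_eq (IntermediateField.fixedField H) α hαmem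
    have hQ := absNorm_comap_of_frob_mem H P l hl hlP σ hσH hfrob
    obtain ⟨n, hn⟩ := exists_int_sub_mem
      (P.comap (algebraMap (𝓞 (IntermediateField.fixedField H)) (𝓞 L))) (by rw [hQ]; exact hl) α'
    rw [Ideal.mem_comap, map_sub, hα', map_intCast] at hn
    refine ⟨(n : 𝓞 k), ?_⟩
    show a - (n : 𝓞 k) ^ p ∈ P.comap (algebraMap (𝓞 k) (𝓞 L))
    rw [Ideal.mem_comap, map_sub, map_pow, map_intCast, ← hα]
    obtain ⟨q, hq⟩ := sub_dvd_pow_sub_pow α (n : 𝓞 L) p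
    rw [hq]
    exact P.mul_mem_right _ hn
  · -- `y` is not a `p`-th power modulo `v`
    rintro ⟨c, hc⟩
    have hc' : β ^ p - (algebraMap (𝓞 k) (𝓞 L) c) ^ p ∈ P := by
      have h1 : y - c ^ p ∈ P.comap (algebraMap (𝓞 k) (𝓞 L)) := hc
      rwa [Ideal.mem_comap, map_sub, map_pow, ← hβ] at h1
    -- the primitive root in `𝓞 L`
    set ζk : 𝓞 k := ⟨ζ, hζ.isIntegral hp.pos⟩ with hζk
    have hζkprim : IsPrimitiveRoot ζk p :=
      IsPrimitiveRoot.of_map_of_injective (f := algebraMap (𝓞 k) k)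
        (show IsPrimitiveRoot (algebraMap (𝓞 k) k ζk) p from hζ) RingOfIntegers.coe_injective
    have hζO : IsPrimitiveRoot (algebraMap (𝓞 k) (𝓞 L) ζk) p := hζkprim.map_of_injective hinjO
    have hrootfix : ∀ η : 𝓞 L, η ^ p = 1 → σ • η = η := by
      intro η hη
      apply RingOfIntegers.ext
      have h1 : (η : L) ^ p = 1 := by
        have := congrArg (fun z : 𝓞 L => (z : L)) hη
        simpa using this
      exact hμ σ hσGk _ h1
    rw [hζO.pow_sub_pow_eq_prod_sub_mul _ _ hp.pos, IsPrime.prod_mem_iff] at hc'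
    obtain ⟨η, hηmem, hη⟩ := hc'
    have hηp : η ^ p = 1 := (Polynomial.mem_nthRootsFinset hp.pos 1).mp hηmem
    set w : 𝓞 L := η * algebraMap (𝓞 k) (𝓞 L) c with hw
    have hσw : σ • w = w := by
      rw [hw, smul_mul', hrootfix η hηp, hσfixO]
    -- `σ β ≡ β`
    have hσβ : σ • β - β ∈ P := by
      have e1 := hfrob β
      have e2 : β ^ l - w ^ l ∈ P := by
        obtain ⟨q, hq⟩ := sub_dvd_pow_sub_pow β w l
        rw [hq]
        exact P.mul_mem_right _ hη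
      have e3 : w ^ l - w ∈ P := by
        have h1 := hfrob w
        rw [hσw] at h1
        have h2 := P.neg_mem h1
        rwa [neg_sub] at h2
      have e4 : w - β ∈ P := by
        have h2 := P.neg_mem hη
        rwa [neg_sub] at h2
      have : σ • β - β = (σ • β - β ^ l) + (β ^ l - w ^ l) + (w ^ l - w) + (w - β) := by ring
      rw [this]
      exact P.add_mem (P.add_mem (P.add_mem e1 e2) e3) e4
    -- `σ β = η' β`
    have hpow : (σ • β) ^ p - β ^ p = 0 := by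
      rw [← smul_pow', hβ, hσfixO, sub_self]
    rw [hζO.pow_sub_pow_eq_prod_sub_mul _ _ hp.pos, Finset.prod_eq_zero_iff] at hpow
    obtain ⟨η', hη'mem, hη'⟩ := hpow
    have hη'p : η' ^ p = 1 := (Polynomial.mem_nthRootsFinset hp.pos 1).mp hη'mem
    have hη'1 : η' ≠ 1 := by
      rintro rfl
      rw [one_mul, sub_eq_zero] at hη'
      apply hσH' ()
      refine Subgroup.mem_inf.mpr ⟨hσH, MulAction.mem_stabilizer_iff.mpr ?_⟩
      exact congrArg (fun z : 𝓞 L => (z : L)) hη'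
    have h1 : (η' - 1) * β ∈ P := by
      have : (η' - 1) * β = σ • β - β := by
        rw [sub_eq_zero] at hη'
        rw [hη']; ring
      rw [this]
      exact hσβ
    rcases hP.mem_or_mem h1 with h2 | h2
    · exact hpP (natCast_mem_of_sub_one_mem P hη'p hη'1 h2)
    · apply hyv
      show y ∈ P.comap (algebraMap (𝓞 k) (𝓞 L))
      rw [Ideal.mem_comap, ← hβ]
      exact P.pow_mem_of_mem h2 p hp.pos

end Core

end Fermat.Agent.S55.H81
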