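import Fermat.Agent.S55.H8.KummerModel
import Fermat.Agent.S55.H65.AuxPlaceFinal

/-!
# Program C (S55), package C7, leaf (L-EX) (helper81): auxiliary places, final form

`existsAuxStatement : H8.ExistsAuxStatement k p` — the field `exists_aux` of the Kummer
hypotheses in the embedding model (`H8/KummerModel`), for a number field `k` containing a
primitive `p`-th root of unity.

Chain: Frobenius density (`S41/H70`) ⟹ residue form (`H81.exists_prime_pow_not_pow`) ⟹
embedding of the prime (`H81.exists_emb_of_prime`) ⟹ local `p`-th powers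
(`H65.exists_pow_eq_locEmb_iff`) ⟹ places (`H81.exists_place_aux_of_local`,
`H65.exists_place_aux`) ⟹ the finite places of `H88/SemiLocalSpec` (here).
-/

set_option autoImplicit false

open NumberField IsDedekindDomain

namespace Fermat.Agent.S55.H81

open Fermat.Agent.S55.H88 Fermat.Agent.S55.H8

/-- **(L-EX).**  The leaf `ExistsAuxStatement` of `H8/KummerModel`. -/
theorem existsAuxStatement (k : Type*) [Field k] [NumberField k] {p : ℕ} (hp : p.Prime) {ζ : k}
    (hζ : IsPrimitiveRoot ζ p) : ExistsAuxStatement k p := by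
  intro a y S' hay
  obtain ⟨l, hl, hB, w, h1, h2⟩ :=
    H65.exists_place_aux k hp hζ a y hay (S'.sup fun v : FinPlace k => (v.1 : ℕ))
  refine ⟨⟨⟨l, hl.out⟩, w⟩, ?_, h1, h2⟩
  intro hmem
  have h3 : ((⟨⟨l, hl.out⟩, w⟩ : FinPlace k).1 : ℕ) ≤ S'.sup fun v : FinPlace k => (v.1 : ℕ) :=
    Finset.le_sup (f := fun v : FinPlace k => (v.1 : ℕ)) hmem
  have h4 : l ≤ S'.sup fun v : FinPlace k => (v.1 : ℕ) := h3
  omega

end Fermat.Agent.S55.H81
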