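import Mathlib

/-!
# A Galois number field over a given number field (helper81)

`exists_galois_over`: every number field `K` has an extension `L` (a type in the same universe)
that is a number field and Galois over `ℚ`: the splitting field, inside an algebraic closure of
`K`, of the minimal polynomial of a primitive element.
-/

set_option autoImplicit false
set_option linter.style.haveILetI false

open NumberField Polynomial

namespace Fermat.Agent.S55.H81

open scoped IntermediateField

universe u

theorem exists_galois_over (K : Type u) [Field K] [NumberField K] :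
    ∃ (L : Type u) (_ : Field L) (_ : NumberField L) (_ : Algebra K L), IsGalois ℚ L := by
  classical
  obtain ⟨θ, hθ⟩ := Field.exists_primitive_element ℚ K
  haveI : Algebra.IsAlgebraic ℚ (AlgebraicClosure K) :=
    Algebra.IsAlgebraic.trans ℚ K (AlgebraicClosure K)
  have hint : ∀ x : AlgebraicClosure K, IsIntegral ℚ x := fun x => Algebra.IsIntegral.isIntegral x
  set f : ℚ[X] := minpoly ℚ (algebraMap K (AlgebraicClosure K) θ) with hf
  have hf0 : f ≠ 0 := minpoly.ne_zero (hint _)
  set L₀ : IntermediateField ℚ (AlgebraicClosure K) :=
    IntermediateField.adjoin ℚ (f.rootSet (AlgebraicClosure K)) with hL₀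
  haveI hsplit : f.IsSplittingField ℚ L₀ :=
    IntermediateField.adjoin_rootSet_isSplittingField (IsAlgClosed.splits _)
  have hfd : FiniteDimensional ℚ L₀ := IsSplittingField.finiteDimensional L₀ f
  have hnormal₁ : Normal ℚ L₀ := Normal.of_isSplittingField f
  haveI : NumberField L₀ := by
    refine @NumberField.mk _ _ inferInstance ?_
    convert hfd
  haveI : Normal ℚ L₀ := hnormal₁
  haveI : IsGalois ℚ L₀ := ⟨⟩
  have hθmem : algebraMap K (AlgebraicClosure K) θ ∈ L₀ := by
    refine IntermediateField.subset_adjoin ℚ _ ?_
    rw [Polynomial.mem_rootSet]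
    exact ⟨hf0, minpoly.aeval _ _⟩
  have hk : ∀ x : K, algebraMap K (AlgebraicClosure K) x ∈ L₀ := by
    intro x
    have hx : x ∈ (⊤ : IntermediateField ℚ K) := IntermediateField.mem_top
    rw [← hθ] at hx
    have hle : ℚ⟮θ⟯ ≤ L₀.comap (IsScalarTower.toAlgHom ℚ K (AlgebraicClosure K)) := by
      rw [IntermediateField.adjoin_simple_le_iff]
      exact hθmem
    exact hle hx
  let φ : K →+* ↥L₀ :=
    { toFun := fun x => ⟨algebraMap K (AlgebraicClosure K) x, hk x⟩
      map_one' := Subtype.ext (map_one _)
      map_mul' := fun x y => Subtype.ext (map_mul _ _ _)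
      map_zero' := Subtype.ext (map_zero _)
      map_add' := fun x y => Subtype.ext (map_add _ _ _) }
  exact ⟨↥L₀, inferInstance, inferInstance, φ.toAlgebra, inferInstance⟩

end Fermat.Agent.S55.H81
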