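import Fermat.Agent.S41.H70.FrobDensity
import Fermat.Agent.S55.H81.EmbPrime
import Fermat.Agent.S55.H81.GaloisOver
import Fermat.Agent.S55.H83.DictInj

/-!
# Program C (S55), package C8, leaf E1 "full place" (helper81)

A cyclic extension `K / k` of number fields of `p`-power degree has (infinitely many) places
with full decomposition group, in helper88's embedding model:

`exists_emb_decompGroup_eq_top`: for every `B` there are a prime `l > B` and an embedding
`τ' : K →+* PadicAlgCl l` with `H88.decompGroup l k τ' = ⊤`.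

Route: Frobenius density (`S41/H70.exists_frobenius_not_mem`, one subgroup of index `p`) in a
Galois closure `L / ℚ` of `K`: a Frobenius element `σ` at a prime `P` of `L`, fixing `k`, whose
restriction `t` to `K` is not in the subgroup of index `p` of `Gal(K/k)`.  `σ P = P`, so the
embeddings `τ'` and `τ' ∘ t` of `K` define the same prime, hence are conjugate under the local
Galois group (`H83.exists_algEquiv_of_heightOneOfEmb_eq`): `t` lies in the decomposition group,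
and `t` generates `Gal(K/k)`.
-/

set_option autoImplicit false
set_option linter.style.haveILetI false

open NumberField Ideal IsDedekindDomain

namespace Fermat.Agent.S55.H81

open Fermat.Agent.S41.H70 Fermat.Agent.S55.H88

section Group

/-- In a cyclic group of order `p ^ a` with generator `s₀`, a subgroup containing an element
outside `⟨s₀ ^ p⟩` is everything. -/
theorem eq_top_of_mem_of_not_mem_zpowers_pow {G : Type*} [Group G] {s₀ : G}
    (hs₀ : ∀ g : G, g ∈ Subgroup.zpowers s₀) {p a : ℕ} (hp : p.Prime)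
    (hcard : Nat.card G = p ^ a) (D : Subgroup G) {t : G} (htD : t ∈ D)
    (ht : t ∉ Subgroup.zpowers (s₀ ^ p)) : D = ⊤ := by
  obtain ⟨j, rfl⟩ := Subgroup.mem_zpowers_iff.mp (hs₀ t)
  have hpj : ¬ (p : ℤ) ∣ j := by
    rintro ⟨m, rfl⟩
    apply ht
    rw [Subgroup.mem_zpowers_iff]
    exact ⟨m, by rw [← zpow_natCast, ← zpow_mul]⟩
  have hcop : IsCoprime ((p : ℤ) ^ a) j :=
    (((Nat.prime_iff_prime_int.mp hp).irreducible.coprime_iff_not_dvd).mpr hpj).pow_left
  obtain ⟨u, v, huv⟩ := hcop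
  have hpa : s₀ ^ ((p : ℤ) ^ a) = 1 := by
    have h1 : s₀ ^ (p ^ a) = 1 := by rw [← hcard]; exact pow_card_eq_one'
    rw [← h1, ← zpow_natCast]
    push_cast
    rfl
  have hs₀D : s₀ ∈ D := by
    have h1 : s₀ = (s₀ ^ j) ^ v := by
      rw [← zpow_mul]
      have h2 : j * v = 1 - ((p : ℤ) ^ a) * u := by linear_combination huv
      rw [h2, zpow_sub, zpow_one, zpow_mul, hpa, one_zpow, inv_one, mul_one]
    rw [h1]
    exact D.zpow_mem htD v
  rw [Subgroup.eq_top_iff']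
  intro g
  obtain ⟨i, rfl⟩ := Subgroup.mem_zpowers_iff.mp (hs₀ g)
  exact D.zpow_mem hs₀D i

/-- In a cyclic group of order `p ^ a`, `a ≠ 0`, the generator is not a `p`-th power. -/
theorem generator_not_mem_zpowers_pow {G : Type*} [Group G] {s₀ : G}
    (hs₀ : ∀ g : G, g ∈ Subgroup.zpowers s₀) {p a : ℕ} (hp : p.Prime)
    (hcard : Nat.card G = p ^ a) (ha : a ≠ 0) : s₀ ∉ Subgroup.zpowers (s₀ ^ p) := by
  intro h
  obtain ⟨m, hm⟩ := Subgroup.mem_zpowers_iff.mp h
  have h1 : s₀ ^ ((p : ℤ) * m - 1) = 1 := by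
    rw [zpow_sub, zpow_one, zpow_mul, zpow_natCast, hm, mul_inv_cancel]
  have h2 : (orderOf s₀ : ℤ) ∣ (p : ℤ) * m - 1 := orderOf_dvd_iff_zpow_eq_one.mpr h1
  have h3 : orderOf s₀ = p ^ a := by
    rw [← hcard]; exact orderOf_eq_card_of_forall_mem_zpowers hs₀
  rw [h3] at h2
  have h4 : (p : ℤ) ∣ ((p ^ a : ℕ) : ℤ) := by
    exact_mod_cast dvd_pow_self p ha
  have h5 : (p : ℤ) ∣ 1 := by
    have h6 := h4.trans h2
    have h7 : (p : ℤ) ∣ (p : ℤ) * m := dvd_mul_right _ _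
    have h8 := dvd_sub h7 h6
    simpa using h8
  exact hp.one_lt.ne' (by exact_mod_cast Int.eq_one_of_dvd_one (by positivity) h5)

end Group

section Restrict

variable {k K L : Type*} [Field k] [Field K] [Field L] [NumberField L]
  [Algebra k K] [Algebra K L]

/-- `σ ∈ Gal(L/ℚ)` restricts to `t ∈ Gal(K/k)`. -/
def Restricts (σ : L ≃ₐ[ℚ] L) (t : K ≃ₐ[k] K) : Prop :=
  ∀ x : K, σ (algebraMap K L x) = algebraMap K L (t x)

theorem Restricts.one : Restricts (1 : L ≃ₐ[ℚ] L) (1 : K ≃ₐ[k] K) := fun _ => rfl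

theorem Restricts.mul {σ₁ σ₂ : L ≃ₐ[ℚ] L} {t₁ t₂ : K ≃ₐ[k] K} (h₁ : Restricts σ₁ t₁)
    (h₂ : Restricts σ₂ t₂) : Restricts (σ₁ * σ₂) (t₁ * t₂) := fun x => by
  show σ₁ (σ₂ (algebraMap K L x)) = algebraMap K L (t₁ (t₂ x))
  rw [h₂ x, h₁]

theorem Restricts.inv {σ : L ≃ₐ[ℚ] L} {t : K ≃ₐ[k] K} (h : Restricts σ t) :
    Restricts σ⁻¹ t⁻¹ := fun x => by
  have h1 := h (t⁻¹ x)
  have h2 : t (t⁻¹ x) = x := t.apply_symm_apply x
  rw [h2] at h1
  show σ.symm (algebraMap K L x) = algebraMap K L (t⁻¹ x)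
  rw [← h1, σ.symm_apply_apply]

theorem Restricts.unique {σ : L ≃ₐ[ℚ] L} {t t' : K ≃ₐ[k] K} (h : Restricts σ t)
    (h' : Restricts σ t') : t = t' :=
  AlgEquiv.ext fun x => (algebraMap K L).injective (by rw [← h x, ← h' x])

variable [Algebra k L]

variable (k K L) in
/-- The automorphisms of `L / ℚ` fixing `k` whose restriction to `K` exists and lies in `M`. -/
def liftSubgroup (M : Subgroup (K ≃ₐ[k] K)) : Subgroup (L ≃ₐ[ℚ] L) where
  carrier := {σ | (∀ x : k, σ (algebraMap k L x) = algebraMap k L x) ∧ ∃ t ∈ M, Restricts σ t}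
  mul_mem' := by
    rintro σ₁ σ₂ ⟨h₁, t₁, ht₁, hr₁⟩ ⟨h₂, t₂, ht₂, hr₂⟩
    refine ⟨fun x => ?_, t₁ * t₂, M.mul_mem ht₁ ht₂, hr₁.mul hr₂⟩
    show σ₁ (σ₂ (algebraMap k L x)) = algebraMap k L x
    rw [h₂, h₁]
  one_mem' := ⟨fun _ => rfl, 1, M.one_mem, Restricts.one⟩
  inv_mem' := by
    rintro σ ⟨h, t, ht, hr⟩
    refine ⟨fun x => ?_, t⁻¹, M.inv_mem ht, hr.inv⟩
    show σ.symm (algebraMap k L x) = algebraMap k L x
    conv_lhs => rw [← h x]
    exact σ.symm_apply_apply _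

theorem mem_liftSubgroup {M : Subgroup (K ≃ₐ[k] K)} {σ : L ≃ₐ[ℚ] L} :
    σ ∈ liftSubgroup k K L M ↔
      (∀ x : k, σ (algebraMap k L x) = algebraMap k L x) ∧ ∃ t ∈ M, Restricts σ t := Iff.rfl

variable [IsScalarTower k K L] [CharZero k]

/-- Every element of `Gal(K/k)` lifts to an automorphism of `L / ℚ` fixing `k`. -/
theorem exists_lift_restricts [Normal ℚ L] (t : K ≃ₐ[k] K) :
    ∃ σ : L ≃ₐ[ℚ] L, (∀ x : k, σ (algebraMap k L x) = algebraMap k L x) ∧ Restricts σ t := by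
  haveI : Normal k L := Normal.tower_top_of_normal ℚ k L
  exact ⟨(t.liftNormal L).restrictScalars ℚ, fun x => (t.liftNormal L).commutes x,
    fun x => AlgEquiv.liftNormal_commutes t L x⟩

/-- **Frobenius density for a layer.**  `L / ℚ` Galois, `k ⊆ K ⊆ L`, `K / k` Galois, `M` a proper
normal subgroup of `Gal(K/k)` of... index at least `2`: there are arbitrarily large primes `l`
with a Frobenius element at a prime of `L` above `l` fixing `k` and restricting to an element of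
`Gal(K/k)` outside `M`. -/
theorem exists_frobenius_restricts_not_mem [IsGalois ℚ L]
    (M : Subgroup (K ≃ₐ[k] K)) (hMn : ∀ g : K ≃ₐ[k] K, ∀ m ∈ M, g * m * g⁻¹ ∈ M) (hM : M ≠ ⊤)
    (B : ℕ) :
    ∃ (l : ℕ) (P : Ideal (𝓞 L)) (σ : L ≃ₐ[ℚ] L) (t : K ≃ₐ[k] K), l.Prime ∧ B < l ∧ P.IsPrime ∧
      (l : 𝓞 L) ∈ P ∧ Restricts σ t ∧ t ∉ M ∧ ∀ x : 𝓞 L, σ • x - x ^ l ∈ P := by
  classical
  set H : Subgroup (L ≃ₐ[ℚ] L) := liftSubgroup k K L ⊤ with hH
  set H' : Subgroup (L ≃ₐ[ℚ] L) := liftSubgroup k K L M with hH'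
  have hle : H' ≤ H := fun σ hσ => ⟨hσ.1, hσ.2.choose, Subgroup.mem_top _, hσ.2.choose_spec.2⟩
  have hnormal : ∀ τ ∈ H, ∀ σ ∈ H', τ * σ * τ⁻¹ ∈ H' := by
    rintro τ hτ σ hσ
    obtain ⟨hτk, tτ, -, hrτ⟩ := hτ
    obtain ⟨hσk, tσ, htσ, hrσ⟩ := hσ
    have h1 : τ * σ * τ⁻¹ ∈ H :=
      H.mul_mem (H.mul_mem ⟨hτk, tτ, Subgroup.mem_top _, hrτ⟩ ⟨hσk, tσ, Subgroup.mem_top _, hrσ⟩)
        (H.inv_mem ⟨hτk, tτ, Subgroup.mem_top _, hrτ⟩)
    exact ⟨h1.1, tτ * tσ * tτ⁻¹, hMn tτ tσ htσ, (hrτ.mul hrσ).mul hrτ.inv⟩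
  have hne : ¬ H ≤ H' := by
    intro hle'
    apply hM
    rw [Subgroup.eq_top_iff']
    intro t
    obtain ⟨σ, hσ, hr⟩ := exists_lift_restricts (L := L) t
    obtain ⟨-, t', ht', hr'⟩ := hle' ⟨hσ, t, Subgroup.mem_top t, hr⟩
    rwa [hr.unique hr']
  have hsum : ∑ _i : Unit, (1 : ℝ) / ((H'.relIndex H : ℕ) : ℝ) < 1 := by
    have h1 : H'.relIndex H ≠ 1 := fun h => hne (Subgroup.relIndex_eq_one.mp h)
    simp only [Finset.univ_unique, Finset.sum_singleton]
    rcases Nat.eq_zero_or_pos (H'.relIndex H) with h0 | hpos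
    · rw [h0]; simp
    · have h2 : 2 ≤ H'.relIndex H := by omega
      rw [div_lt_one (by exact_mod_cast hpos)]
      exact_mod_cast h2
  obtain ⟨l, P, σ, hl, hBl, hP, hlP, hσH, hσH', hfrob⟩ :=
    exists_frobenius_not_mem H (fun _ : Unit => H') (fun _ => hle) (fun _ => hnormal) hsum B
  obtain ⟨hσk, t, -, hr⟩ := hσH
  exact ⟨l, P, σ, t, hl, hBl, hP, hlP, hr, fun ht => hσH' () ⟨hσk, t, ht, hr⟩, hfrob⟩

end Restrict

section Decomp

variable {k K L : Type*} [Field k] [Field K] [NumberField K] [Field L] [NumberField L]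
  [Algebra k K] [Algebra K L]

/-- A Frobenius element at the prime of an embedding `τL` of `L` restricts to an element of the
decomposition group of `τL|K`. -/
theorem mem_decompGroup_of_frobenius {l : ℕ} [Fact l.Prime] (σ : L ≃ₐ[ℚ] L) (t : K ≃ₐ[k] K)
    (hr : Restricts σ t) (τL : L →+* PadicAlgCl l)
    (hfrob : ∀ x : 𝓞 L, σ • x - x ^ l ∈ primeOfEmb τL) :
    t ∈ decompGroup l k (τL.comp (algebraMap K L)) := by
  have hmem : ∀ y : 𝓞 L, σ • y ∈ primeOfEmb τL ↔ y ∈ primeOfEmb τL := by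
    intro y
    have h1 := hfrob y
    constructor
    · intro h
      have h2 : y ^ l ∈ primeOfEmb τL := by
        have h3 := (primeOfEmb τL).sub_mem h h1
        rwa [sub_sub_cancel] at h3
      exact (primeOfEmb_isPrime τL).mem_of_pow_mem l h2
    · intro h
      have h2 : y ^ l ∈ primeOfEmb τL :=
        (primeOfEmb τL).pow_mem_of_mem h l (Fact.out : l.Prime).pos
      have h3 := (primeOfEmb τL).add_mem h1 h2
      rwa [sub_add_cancel] at h3
  have hprime : H83.heightOneOfEmb l (τL.comp (algebraMap K L)) =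
      H83.heightOneOfEmb l ((τL.comp (algebraMap K L)).comp ((t : K ≃+* K) : K →+* K)) := by
    apply HeightOneSpectrum.ext
    rw [H83.heightOneOfEmb_asIdeal, H83.heightOneOfEmb_asIdeal]
    ext x
    rw [H83.mem_primeOfEmb, H83.mem_primeOfEmb]
    have h1 := hmem (algebraMap (𝓞 K) (𝓞 L) x)
    rw [mem_primeOfEmb, mem_primeOfEmb] at h1
    have h2 : ((σ • algebraMap (𝓞 K) (𝓞 L) x : 𝓞 L) : L) = algebraMap K L (t (x : K)) := hr (x : K)
    rw [h2] at h1
    exact h1.symm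
  obtain ⟨g, hg⟩ := H83.exists_algEquiv_of_heightOneOfEmb_eq _ _ _ hprime
  exact ⟨g, hg⟩

end Decomp

/-- **(E1, full place).**  A cyclic extension `K / k` of number fields of `p`-power degree has
places with full decomposition group above arbitrarily large primes. -/
theorem exists_emb_decompGroup_eq_top (k K : Type*) [Field k] [NumberField k] [Field K]
    [NumberField K] [Algebra k K] [IsCyclic (K ≃ₐ[k] K)] {p a : ℕ} (hp : p.Prime)
    (hcard : Nat.card (K ≃ₐ[k] K) = p ^ a) (B : ℕ) :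
    ∃ (l : ℕ) (_ : Fact l.Prime), B < l ∧ ∃ τ' : K →+* PadicAlgCl l,
      decompGroup l k τ' = ⊤ := by
  classical
  obtain ⟨L, _, _, _, hGal⟩ := exists_galois_over K
  letI : Algebra k L := ((algebraMap K L).comp (algebraMap k K)).toAlgebra
  haveI : IsScalarTower k K L := IsScalarTower.of_algebraMap_eq (fun _ => rfl)
  obtain ⟨s₀, hs₀⟩ := IsCyclic.exists_generator (α := K ≃ₐ[k] K)
  rcases Nat.eq_zero_or_pos a with rfl | ha
  · -- the trivial layer
    rw [pow_zero] at hcard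
    haveI : Subsingleton (K ≃ₐ[k] K) := (Nat.card_eq_one_iff_unique.mp hcard).1
    obtain ⟨l, hBl, hl⟩ := Nat.exists_infinite_primes (B + 1)
    haveI : Fact l.Prime := ⟨hl⟩
    exact ⟨l, ⟨hl⟩, by omega, (IsAlgClosed.lift : K →ₐ[ℚ] PadicAlgCl l).toRingHom,
      Subsingleton.elim _ _⟩
  · have hcomm : ∀ g m : K ≃ₐ[k] K, g * m * g⁻¹ = m := fun g m => by
      haveI : IsMulCommutative (K ≃ₐ[k] K) := IsCyclic.isMulCommutative
      rw [(IsMulCommutative.is_comm (M := K ≃ₐ[k] K)).comm g m, mul_inv_cancel_right]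
    have hM : Subgroup.zpowers (s₀ ^ p) ≠ ⊤ := fun h =>
      generator_not_mem_zpowers_pow hs₀ hp hcard ha.ne' (by rw [h]; exact Subgroup.mem_top _)
    obtain ⟨l, P, σ, t, hl, hBl, hP, hlP, hr, htM, hfrob⟩ :=
      exists_frobenius_restricts_not_mem (k := k) (K := K) (L := L) (Subgroup.zpowers (s₀ ^ p))
        (fun g m hm => by rw [hcomm]; exact hm) hM B
    haveI : Fact l.Prime := ⟨hl⟩
    have hPbot : P ≠ ⊥ := by
      intro h
      rw [h, Ideal.mem_bot] at hlP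
      exact hl.ne_zero (by exact_mod_cast hlP)
    obtain ⟨τL, hτL⟩ := exists_emb_of_prime (l := l) ⟨P, hP, hPbot⟩ hlP
    have ht : t ∈ decompGroup l k (τL.comp (algebraMap K L)) :=
      mem_decompGroup_of_frobenius σ t hr τL (by rw [hτL]; exact hfrob)
    exact ⟨l, ⟨hl⟩, hBl, τL.comp (algebraMap K L),
      eq_top_of_mem_of_not_mem_zpowers_pow hs₀ hp hcard _ ht htM⟩

end Fermat.Agent.S55.H81
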