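/-
S55 / Program C, package C9a, orbit sizes for the leaf (ISO-DIM) (helper81).

For a rational prime `q`, a number field `L ⊆ ℚ̄` and `γ ∈ G_ℚ`, write
`E_γ = H88.locField q (orbEmb q L γ) = ℚ_q(padicEmbedding q (γ L)) ⊆ PadicAlgCl q`.

* `card_quotient_fixingSubgroup` (OS1): `#(G_ℚ ⧸ G_L) = [L : ℚ]`;
* `coset_eq_iff_orbEmb_eq`: `γ₂ G_L = γ₁ G_L ↔ orbEmb γ₂ = orbEmb γ₁`;
* `local_smul_eq_iff` (OS3): `g` of the local group fixes the coset `γ G_L` iff it fixes `E_γ`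
  pointwise;
* `card_orbit_eq_finrank` (OS2): the `G_q`-orbit of `γ G_L` has `[E_γ : ℚ_q]` elements;
* `sum_finrank_locField` (OS4): `Σ_O [E_O : ℚ_q] = [L : ℚ]` over any system of representatives
  of the orbits.
-/
import Mathlib
import Fermat.Agent.S55.H81.IsoOrb

set_option autoImplicit false

open NumberField IsDedekindDomain ExtCitation

namespace Fermat.Agent.S55.H81

open Fermat.Agent.S55.H88

noncomputable section

local notation "Qb" => AlgebraicClosure ℚ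

local instance isAlgebraicQbar_h81 : Algebra.IsAlgebraic ℚ (AlgebraicClosure ℚ) :=
  AlgebraicClosure.isAlgebraic ℚ
local instance isAlgClosureQbar_h81 : IsAlgClosure ℚ (AlgebraicClosure ℚ) :=
  ⟨inferInstance, inferInstance⟩
local instance isGaloisQbar_h81 : IsGalois ℚ (AlgebraicClosure ℚ) :=
  IsAlgClosure.isGalois ℚ (AlgebraicClosure ℚ)

/-- (OS1) `#(G_ℚ ⧸ G_L) = [L : ℚ]`. -/
theorem card_quotient_fixingSubgroup (L : IntermediateField ℚ Qb) :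
    Nat.card ((Qb ≃ₐ[ℚ] Qb) ⧸ L.fixingSubgroup) = Module.finrank ℚ ↥L := by
  rw [← Subgroup.index_eq_card, IntermediateField.finrank_eq_fixingSubgroup_index]

theorem finite_quotient_fixingSubgroup (L : IntermediateField ℚ Qb) [FiniteDimensional ℚ ↥L] :
    Finite ((Qb ≃ₐ[ℚ] Qb) ⧸ L.fixingSubgroup) := by
  refine Nat.finite_of_card_ne_zero ?_
  rw [card_quotient_fixingSubgroup]
  exact Nat.pos_iff_ne_zero.mp Module.finrank_pos

section Local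

variable (q : ℕ) [Fact q.Prime] (L : IntermediateField ℚ Qb)

theorem coset_eq_iff_orbEmb_eq (γ₁ γ₂ : Qb ≃ₐ[ℚ] Qb) :
    ((γ₂ : Qb ≃ₐ[ℚ] Qb) : (Qb ≃ₐ[ℚ] Qb) ⧸ L.fixingSubgroup) = γ₁ ↔
      orbEmb q L γ₂ = orbEmb q L γ₁ := by
  constructor
  · intro h
    have h1 : γ₂⁻¹ * γ₁ ∈ L.fixingSubgroup := QuotientGroup.eq.1 h
    have h2 := orbEmb_mul_of_mem q L γ₂ h1
    rw [mul_inv_cancel_left] at h2
    exact h2.symm
  · intro h
    obtain ⟨h', hh', h2⟩ := eq_mul_of_orbEmb_eq q L h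
    rw [h2, QuotientGroup.eq]
    simpa using inv_mem hh'

/-- (OS3) An element of the local Galois group fixes the coset `γ G_L` iff it fixes
`ℚ_q(padicEmbedding q (γ L))` pointwise. -/
theorem local_smul_eq_iff (g : PadicAlgCl q ≃ₐ[ℚ_[q]] PadicAlgCl q) (γ : Qb ≃ₐ[ℚ] Qb) :
    ((localGaloisToGlobal q g * γ : Qb ≃ₐ[ℚ] Qb) : (Qb ≃ₐ[ℚ] Qb) ⧸ L.fixingSubgroup) = γ ↔
      g ∈ (locField q (orbEmb q L γ)).fixingSubgroup := by
  rw [coset_eq_iff_orbEmb_eq q L, orbEmb_local, IntermediateField.mem_fixingSubgroup_iff]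
  constructor
  · intro h z hz
    rw [locField] at hz
    induction hz using IntermediateField.adjoin_induction with
    | mem x hx =>
      obtain ⟨y, rfl⟩ := hx
      exact RingHom.congr_fun h y
    | algebraMap x => exact g.commutes x
    | add x y _ _ hx hy => rw [map_add, hx, hy]
    | inv x _ hx => rw [map_inv₀, hx]
    | mul x y _ _ hx hy => rw [map_mul, hx, hy]
  · intro h
    refine RingHom.ext fun x => ?_
    exact h _ (IntermediateField.subset_adjoin ℚ_[q] (Set.range (orbEmb q L γ)) ⟨x, rfl⟩)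

end Local

section Orbit

attribute [local instance] orbAction

variable (q : Nat.Primes) (L : IntermediateField ℚ Qb)

/-- The completion of `L` at the embedding `x ↦ padicEmbedding q (γ x)`. -/
def orbField (γ : Qb ≃ₐ[ℚ] Qb) :
    haveI : Fact (q : ℕ).Prime := ⟨q.2⟩
    IntermediateField ℚ_[(q : ℕ)] (PadicAlgCl (q : ℕ)) :=
  haveI : Fact (q : ℕ).Prime := ⟨q.2⟩
  locField (q : ℕ) (orbEmb (q : ℕ) L γ)

/-- The stabiliser of the coset `γ G_L` in the local Galois group at `q`. -/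
theorem stabilizer_coset (γ : Qb ≃ₐ[ℚ] Qb) :
    haveI : Fact (q : ℕ).Prime := ⟨q.2⟩
    MulAction.stabilizer (primeLocalGaloisGroup q)
      (γ : (Qb ≃ₐ[ℚ] Qb) ⧸ L.fixingSubgroup) = (orbField q L γ).fixingSubgroup := by
  have : Fact (q : ℕ).Prime := ⟨q.2⟩
  ext g
  rw [MulAction.mem_stabilizer_iff]
  exact local_smul_eq_iff (q : ℕ) L g γ

/-- (OS2) The orbit of `γ G_L` under the local Galois group at `q` has
`[ℚ_q(padicEmbedding q (γ L)) : ℚ_q]` elements. -/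
theorem card_orbit_eq_finrank (γ : Qb ≃ₐ[ℚ] Qb) :
    haveI : Fact (q : ℕ).Prime := ⟨q.2⟩
    Nat.card ↥(MulAction.orbit (primeLocalGaloisGroup q)
      (γ : (Qb ≃ₐ[ℚ] Qb) ⧸ L.fixingSubgroup)) =
      Module.finrank ℚ_[(q : ℕ)] ↥(orbField q L γ) := by
  have : Fact (q : ℕ).Prime := ⟨q.2⟩
  rw [Nat.card_coe_set_eq, ← MulAction.index_stabilizer, stabilizer_coset,
    IntermediateField.finrank_eq_fixingSubgroup_index]
  rfl

/-- (OS4) `Σ_O [E_O : ℚ_q] = [L : ℚ]`, the sum over any system of representatives of the orbits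
of the local Galois group at `q` on `G_ℚ ⧸ G_L`. -/
theorem sum_finrank_locField [FiniteDimensional ℚ ↥L] {ι : Type*} [Fintype ι]
    (rep : ι → (Qb ≃ₐ[ℚ] Qb))
    (hrep : Function.Bijective (fun i : ι =>
      (Quotient.mk (MulAction.orbitRel (primeLocalGaloisGroup q)
        ((Qb ≃ₐ[ℚ] Qb) ⧸ L.fixingSubgroup))
        ((rep i : Qb ≃ₐ[ℚ] Qb) : (Qb ≃ₐ[ℚ] Qb) ⧸ L.fixingSubgroup)))) :
    haveI : Fact (q : ℕ).Prime := ⟨q.2⟩
    ∑ i : ι, Module.finrank ℚ_[(q : ℕ)] ↥(orbField q L (rep i)) = Module.finrank ℚ ↥L := by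
  have : Fact (q : ℕ).Prime := ⟨q.2⟩
  have := finite_quotient_fixingSubgroup L
  classical
  let e : ι ≃ MulAction.orbitRel.Quotient (primeLocalGaloisGroup q)
      ((Qb ≃ₐ[ℚ] Qb) ⧸ L.fixingSubgroup) := Equiv.ofBijective _ hrep
  have : Fintype (MulAction.orbitRel.Quotient (primeLocalGaloisGroup q)
      ((Qb ≃ₐ[ℚ] Qb) ⧸ L.fixingSubgroup)) := Fintype.ofEquiv ι e
  have h1 : Nat.card ((Qb ≃ₐ[ℚ] Qb) ⧸ L.fixingSubgroup) =
      ∑ ω : MulAction.orbitRel.Quotient (primeLocalGaloisGroup q)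
        ((Qb ≃ₐ[ℚ] Qb) ⧸ L.fixingSubgroup), Nat.card ↥ω.orbit := by
    rw [Nat.card_congr (MulAction.selfEquivSigmaOrbits' (primeLocalGaloisGroup q)
      ((Qb ≃ₐ[ℚ] Qb) ⧸ L.fixingSubgroup)), Nat.card_sigma]
  rw [← card_quotient_fixingSubgroup, h1, ← Equiv.sum_comp e]
  refine Finset.sum_congr rfl fun i _ => ?_
  rw [← card_orbit_eq_finrank]
  rfl

/-- Membership of `γ₂ G_L` in the local orbit of `γ₁ G_L`, in double coset form. -/
theorem mem_orbit_coset_iff (γ₁ γ₂ : Qb ≃ₐ[ℚ] Qb) :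
    (γ₂ : (Qb ≃ₐ[ℚ] Qb) ⧸ L.fixingSubgroup) ∈ MulAction.orbit (primeLocalGaloisGroup q)
      (γ₁ : (Qb ≃ₐ[ℚ] Qb) ⧸ L.fixingSubgroup) ↔
      ∃ g : primeLocalGaloisGroup q, ∃ h ∈ L.fixingSubgroup,
        γ₂ = primeLocalToGlobal q g * γ₁ * h := by
  rw [MulAction.mem_orbit_iff]
  constructor
  · rintro ⟨g, hg⟩
    have h1 : ((primeLocalToGlobal q g * γ₁ : Qb ≃ₐ[ℚ] Qb) :
        (Qb ≃ₐ[ℚ] Qb) ⧸ L.fixingSubgroup) = γ₂ := hg
    have h2 : (primeLocalToGlobal q g * γ₁)⁻¹ * γ₂ ∈ L.fixingSubgroup := QuotientGroup.eq.1 h1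
    exact ⟨g, _, h2, by group⟩
  · rintro ⟨g, h, hh, rfl⟩
    refine ⟨g, ?_⟩
    show ((primeLocalToGlobal q g * γ₁ : Qb ≃ₐ[ℚ] Qb) :
        (Qb ≃ₐ[ℚ] Qb) ⧸ L.fixingSubgroup) = _
    rw [QuotientGroup.eq]
    simpa using hh

/-- **Orbit representatives.**  A system of representatives `rep 0, …, rep (n-1)` of the double
cosets `G_q \ G_ℚ / G_L` with `n ≤ #{w ∣ q}` and `Σ_i [E_i : ℚ_q] = [L : ℚ]`,
`E_i = ℚ_q(padicEmbedding q (rep i L))`. -/
theorem exists_orbit_reps [NumberField ↥L] :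
    haveI : Fact (q : ℕ).Prime := ⟨q.2⟩
    ∃ (n : ℕ) (rep : Fin n → (Qb ≃ₐ[ℚ] Qb)), n ≤ (H87.placesOver ↥L {q}).card ∧
      (∀ γ : Qb ≃ₐ[ℚ] Qb, ∃! i : Fin n, ∃ g : primeLocalGaloisGroup q, ∃ h ∈ L.fixingSubgroup,
        γ = primeLocalToGlobal q g * rep i * h) ∧
      ∑ i : Fin n, Module.finrank ℚ_[(q : ℕ)] ↥(orbField q L (rep i)) = Module.finrank ℚ ↥L := by
  have : Fact (q : ℕ).Prime := ⟨q.2⟩
  have := finite_quotient_fixingSubgroup L
  have hfin : Finite (MulAction.orbitRel.Quotient (primeLocalGaloisGroup q)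
      ((Qb ≃ₐ[ℚ] Qb) ⧸ L.fixingSubgroup)) := Quotient.finite _
  let e := (Finite.equivFin (MulAction.orbitRel.Quotient (primeLocalGaloisGroup q)
      ((Qb ≃ₐ[ℚ] Qb) ⧸ L.fixingSubgroup))).symm
  let rep : Fin (Nat.card (MulAction.orbitRel.Quotient (primeLocalGaloisGroup q)
      ((Qb ≃ₐ[ℚ] Qb) ⧸ L.fixingSubgroup))) → (Qb ≃ₐ[ℚ] Qb) :=
    fun i => Quotient.out (Quotient.out (e i))
  have hrep : ∀ i, (Quotient.mk (MulAction.orbitRel (primeLocalGaloisGroup q)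
        ((Qb ≃ₐ[ℚ] Qb) ⧸ L.fixingSubgroup))
        ((rep i : Qb ≃ₐ[ℚ] Qb) : (Qb ≃ₐ[ℚ] Qb) ⧸ L.fixingSubgroup)) = e i := by
    intro i
    have h1 : ((rep i : Qb ≃ₐ[ℚ] Qb) : (Qb ≃ₐ[ℚ] Qb) ⧸ L.fixingSubgroup) =
        Quotient.out (e i) := Quotient.out_eq _
    rw [h1]
    exact Quotient.out_eq _
  have hbij : Function.Bijective (fun i =>
      (Quotient.mk (MulAction.orbitRel (primeLocalGaloisGroup q)
        ((Qb ≃ₐ[ℚ] Qb) ⧸ L.fixingSubgroup))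
        ((rep i : Qb ≃ₐ[ℚ] Qb) : (Qb ≃ₐ[ℚ] Qb) ⧸ L.fixingSubgroup))) := by
    have h2 : (fun i => (Quotient.mk (MulAction.orbitRel (primeLocalGaloisGroup q)
        ((Qb ≃ₐ[ℚ] Qb) ⧸ L.fixingSubgroup))
        ((rep i : Qb ≃ₐ[ℚ] Qb) : (Qb ≃ₐ[ℚ] Qb) ⧸ L.fixingSubgroup))) = e := funext hrep
    rw [h2]
    exact e.bijective
  refine ⟨_, rep, card_orbits_le q L, ?_, sum_finrank_locField q L rep hbij⟩
  intro γ
  have key : ∀ i, (∃ g : primeLocalGaloisGroup q, ∃ h ∈ L.fixingSubgroup,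
      γ = primeLocalToGlobal q g * rep i * h) ↔
      e i = Quotient.mk (MulAction.orbitRel (primeLocalGaloisGroup q)
        ((Qb ≃ₐ[ℚ] Qb) ⧸ L.fixingSubgroup)) (γ : (Qb ≃ₐ[ℚ] Qb) ⧸ L.fixingSubgroup) := by
    intro i
    rw [← mem_orbit_coset_iff, ← hrep i, eq_comm, Quotient.eq, MulAction.orbitRel_apply]
  refine ⟨e.symm (Quotient.mk _ (γ : (Qb ≃ₐ[ℚ] Qb) ⧸ L.fixingSubgroup)), ?_, ?_⟩
  · exact (key _).2 (e.apply_symm_apply _)
  · intro j hj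
    exact (e.eq_symm_apply).2 ((key j).1 hj)

end Orbit

end

end Fermat.Agent.S55.H81
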