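/-
S55 / Program C, packages C9a / C9b (C), the orbit–place BIJECTION (helper81).

For a rational prime `q` and a number field `L ⊆ ℚ̄`, the map
`γ G_L ↦ (the place of L above q defined by x ↦ padicEmbedding q (γ x))` identifies the orbits of
the local Galois group at `q` on `G_ℚ ⧸ G_L` with the places of `L` above `q`, in both models:

* `cosetPlace q L : G_ℚ ⧸ G_L → ↥(H87.placesOver L {q})` (primes of `𝓞 L`), with
  `cosetPlace_smul`, `cosetPlace_eq_iff`, `cosetPlace_surjective`; `orbitBij : OrbitBij`;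
* `cosetPlaceAbove q L : G_ℚ ⧸ G_L → H88.PlaceAbove q L` (orbits of embeddings), with
  `cosetPlaceAbove_smul`, `cosetPlaceAbove_eq_iff`, `cosetPlaceAbove_surjective`.

`L` need not be Galois over `ℚ`.
-/
import Mathlib
import Fermat.Agent.S55.H81.IsoOrbSum
import Fermat.Agent.S55.H83.DictSurj
import Fermat.Agent.S55.H88.SemiLocalBasic

set_option autoImplicit false

open NumberField IsDedekindDomain ExtCitation

namespace Fermat.Agent.S55.H81

open Fermat.Agent.S55.H88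

noncomputable section

local notation "Qb" => AlgebraicClosure ℚ

local instance isAlgebraicQbar_h81b : Algebra.IsAlgebraic ℚ (AlgebraicClosure ℚ) :=
  AlgebraicClosure.isAlgebraic ℚ
local instance isAlgClosureQbar_h81b : IsAlgClosure ℚ (AlgebraicClosure ℚ) :=
  ⟨inferInstance, inferInstance⟩
local instance normalQbar_h81b : Normal ℚ (AlgebraicClosure ℚ) :=
  IsAlgClosure.normal ℚ (AlgebraicClosure ℚ)

section Emb

variable (q : ℕ) [Fact q.Prime] (L : IntermediateField ℚ Qb)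

/-- Every embedding of `L` into `PadicAlgCl q` is `x ↦ padicEmbedding q (γ x)` for some
`γ ∈ G_ℚ`. -/
theorem exists_global_of_emb (τ : ↥L →+* PadicAlgCl q) :
    ∃ γ : Qb ≃ₐ[ℚ] Qb, orbEmb q L γ = τ := by
  have halg : Algebra.IsAlgebraic ↥L Qb := Algebra.IsAlgebraic.tower_top (K := ℚ) ↥L
  obtain ⟨τ₁, hτ₁⟩ := exists_extend q (k := ↥L) (K := Qb) τ
  have h : ((padicEmbedding q : Qb →ₐ[ℚ] PadicAlgCl q) : Qb →+* PadicAlgCl q).comp
      (algebraMap ℚ Qb) = τ₁.comp (algebraMap ℚ Qb) := Subsingleton.elim _ _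
  obtain ⟨σ, hσ⟩ := exists_algEquiv_comp_eq q (k := ℚ) (K := Qb)
    ((padicEmbedding q : Qb →ₐ[ℚ] PadicAlgCl q) : Qb →+* PadicAlgCl q) τ₁ h
  refine ⟨σ, RingHom.ext fun x => ?_⟩
  have h1 := RingHom.congr_fun hτ₁ x
  have h2 := RingHom.congr_fun hσ (x : Qb)
  exact (h1.symm.trans h2).symm

end Emb

section Prime

variable (q : Nat.Primes) (L : IntermediateField ℚ Qb) [NumberField ↥L]

/-- Every prime of `𝓞 L` above `q` is `orbPrime q L γ` for some `γ ∈ G_ℚ`. -/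
theorem exists_orbPrime_eq (w : HeightOneSpectrum (𝓞 ↥L)) (hw : w ∈ H87.placesOver ↥L {q}) :
    ∃ γ : Qb ≃ₐ[ℚ] Qb, orbPrime q L γ = w := by
  have : Fact (q : ℕ).Prime := ⟨q.2⟩
  rw [H87.mem_placesOver] at hw
  obtain ⟨q', hq', hqw⟩ := hw
  rw [Finset.mem_singleton] at hq'
  subst hq'
  have h2 : (((q' : ℕ) : ℤ) : 𝓞 ↥L) = ((q' : ℕ) : 𝓞 ↥L) := by push_cast; rfl
  rw [h2] at hqw
  obtain ⟨τ, hτ⟩ := H83.exists_emb_heightOneOfEmb_eq (q' : ℕ) w hqw
  obtain ⟨γ, hγ⟩ := exists_global_of_emb (q' : ℕ) L τ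
  refine ⟨γ, ?_⟩
  rw [orbPrime, hγ, hτ]

/-- The place of `L` above `q` (as a prime of `𝓞 L`) attached to a coset `γ G_L`. -/
def cosetPlace (x : (Qb ≃ₐ[ℚ] Qb) ⧸ L.fixingSubgroup) : ↥(H87.placesOver ↥L {q}) :=
  ⟨cosetPrime q L x, cosetPrime_mem q L x⟩

theorem cosetPlace_mk (γ : Qb ≃ₐ[ℚ] Qb) :
    (cosetPlace q L (γ : (Qb ≃ₐ[ℚ] Qb) ⧸ L.fixingSubgroup) : HeightOneSpectrum (𝓞 ↥L)) =
      orbPrime q L γ := rfl

/-- (a) `cosetPlace` is constant on the orbits of the local Galois group. -/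
theorem cosetPlace_smul (σ : primeLocalGaloisGroup q) (x : (Qb ≃ₐ[ℚ] Qb) ⧸ L.fixingSubgroup) :
    cosetPlace q L (primeLocalToGlobal q σ • x) = cosetPlace q L x := by
  induction x using QuotientGroup.induction_on with | _ γ => ?_
  exact Subtype.ext (orbPrime_local q L σ γ)

/-- (ORB) `cosetPlace` separates the orbits of the local Galois group. -/
theorem cosetPlace_eq_iff (x y : (Qb ≃ₐ[ℚ] Qb) ⧸ L.fixingSubgroup) :
    cosetPlace q L x = cosetPlace q L y ↔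
      ∃ σ : primeLocalGaloisGroup q, primeLocalToGlobal q σ • x = y := by
  constructor
  · induction x using QuotientGroup.induction_on with | _ γ₁ => ?_
    induction y using QuotientGroup.induction_on with | _ γ₂ => ?_
    intro h
    have h0 : orbPrime q L γ₁ = orbPrime q L γ₂ := congrArg Subtype.val h
    obtain ⟨g, h', hh', h2⟩ := exists_local_of_orbPrime_eq q L h0
    refine ⟨g, ?_⟩
    show ((primeLocalToGlobal q g * γ₁ : Qb ≃ₐ[ℚ] Qb) :
      (Qb ≃ₐ[ℚ] Qb) ⧸ L.fixingSubgroup) = γ₂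
    rw [h2, QuotientGroup.eq]
    simpa using hh'
  · rintro ⟨σ, rfl⟩
    exact (cosetPlace_smul q L σ x).symm

/-- (b) Every place of `L` above `q` comes from a coset. -/
theorem cosetPlace_surjective : Function.Surjective (cosetPlace q L) := by
  rintro ⟨w, hw⟩
  obtain ⟨γ, hγ⟩ := exists_orbPrime_eq q L w hw
  exact ⟨(γ : (Qb ≃ₐ[ℚ] Qb) ⧸ L.fixingSubgroup), Subtype.ext hγ⟩

end Prime

/-- **(ORB), bijection form** (needed for `eV` of the field-form bridge (C)): a map from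
`G_ℚ ⧸ G_L` ONTO the primes of `L` above `q` whose fibres are exactly the orbits of the local
Galois group at `q`. -/
def OrbitBij : Prop :=
  ∀ (q : Nat.Primes) (L : IntermediateField ℚ (AlgebraicClosure ℚ)) [NumberField ↥L],
    ∃ f : ((AlgebraicClosure ℚ ≃ₐ[ℚ] AlgebraicClosure ℚ) ⧸ L.fixingSubgroup) →
        ↥(H87.placesOver ↥L {q}),
      (∀ x y, f x = f y → ∃ σ : primeLocalGaloisGroup q, primeLocalToGlobal q σ • x = y) ∧
      (∀ (σ : primeLocalGaloisGroup q) x, f (primeLocalToGlobal q σ • x) = f x) ∧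
      Function.Surjective f

theorem orbitBij : OrbitBij := fun q L _ =>
  ⟨cosetPlace q L, fun x y h => (cosetPlace_eq_iff q L x y).1 h, cosetPlace_smul q L,
    cosetPlace_surjective q L⟩

section PlaceAbove

variable (q : Nat.Primes) (L : IntermediateField ℚ Qb)

/-- The place of `L` above `q` (as an orbit of embeddings, `H88.PlaceAbove`) attached to a coset
`γ G_L`. -/
def cosetPlaceAbove (x : (Qb ≃ₐ[ℚ] Qb) ⧸ L.fixingSubgroup) :
    haveI : Fact (q : ℕ).Prime := ⟨q.2⟩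
    PlaceAbove (q : ℕ) ↥L :=
  haveI : Fact (q : ℕ).Prime := ⟨q.2⟩
  Quotient.liftOn x (s := QuotientGroup.leftRel L.fixingSubgroup)
    (fun γ => placeOf (q : ℕ) (orbEmb (q : ℕ) L γ)) (by
      intro a b hab
      have h1 : a⁻¹ * b ∈ L.fixingSubgroup := QuotientGroup.leftRel_apply.1 hab
      have h2 := orbEmb_mul_of_mem (q : ℕ) L a h1
      rw [mul_inv_cancel_left] at h2
      show placeOf (q : ℕ) (orbEmb (q : ℕ) L a) = placeOf (q : ℕ) (orbEmb (q : ℕ) L b)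
      rw [h2])

theorem cosetPlaceAbove_mk (γ : Qb ≃ₐ[ℚ] Qb) :
    haveI : Fact (q : ℕ).Prime := ⟨q.2⟩
    cosetPlaceAbove q L (γ : (Qb ≃ₐ[ℚ] Qb) ⧸ L.fixingSubgroup) =
      placeOf (q : ℕ) (orbEmb (q : ℕ) L γ) := rfl

theorem cosetPlaceAbove_eq_iff (x y : (Qb ≃ₐ[ℚ] Qb) ⧸ L.fixingSubgroup) :
    cosetPlaceAbove q L x = cosetPlaceAbove q L y ↔
      ∃ σ : primeLocalGaloisGroup q, primeLocalToGlobal q σ • x = y := by
  have : Fact (q : ℕ).Prime := ⟨q.2⟩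
  induction x using QuotientGroup.induction_on with | _ γ₁ => ?_
  induction y using QuotientGroup.induction_on with | _ γ₂ => ?_
  rw [cosetPlaceAbove_mk, cosetPlaceAbove_mk]
  have h0 : placeOf (q : ℕ) (orbEmb (q : ℕ) L γ₁) = placeOf (q : ℕ) (orbEmb (q : ℕ) L γ₂) ↔
      ∃ g : PadicAlgCl (q : ℕ) ≃ₐ[ℚ_[(q : ℕ)]] PadicAlgCl (q : ℕ),
        orbEmb (q : ℕ) L γ₂ =
          (g : PadicAlgCl (q : ℕ) →+* PadicAlgCl (q : ℕ)).comp (orbEmb (q : ℕ) L γ₁) :=
    Quotient.eq (r := placeSetoid (q : ℕ) ↥L)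
  rw [h0]
  constructor
  · rintro ⟨g, hg⟩
    refine ⟨g, ?_⟩
    show ((localGaloisToGlobal (q : ℕ) g * γ₁ : Qb ≃ₐ[ℚ] Qb) :
      (Qb ≃ₐ[ℚ] Qb) ⧸ L.fixingSubgroup) = γ₂
    rw [eq_comm, coset_eq_iff_orbEmb_eq (q : ℕ) L, orbEmb_local]
    exact hg
  · rintro ⟨g, hg⟩
    let g' : PadicAlgCl (q : ℕ) ≃ₐ[ℚ_[(q : ℕ)]] PadicAlgCl (q : ℕ) := g
    refine ⟨g', ?_⟩
    have h1 : ((localGaloisToGlobal (q : ℕ) g' * γ₁ : Qb ≃ₐ[ℚ] Qb) :
      (Qb ≃ₐ[ℚ] Qb) ⧸ L.fixingSubgroup) = γ₂ := hg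
    rw [eq_comm, coset_eq_iff_orbEmb_eq (q : ℕ) L] at h1
    exact h1.trans (orbEmb_local (q : ℕ) L g' γ₁)

theorem cosetPlaceAbove_smul (σ : primeLocalGaloisGroup q)
    (x : (Qb ≃ₐ[ℚ] Qb) ⧸ L.fixingSubgroup) :
    cosetPlaceAbove q L (primeLocalToGlobal q σ • x) = cosetPlaceAbove q L x :=
  ((cosetPlaceAbove_eq_iff q L x _).2 ⟨σ, rfl⟩).symm

theorem cosetPlaceAbove_surjective : Function.Surjective (cosetPlaceAbove q L) := by
  have : Fact (q : ℕ).Prime := ⟨q.2⟩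
  intro w
  induction w using Quotient.inductionOn with | _ τ => ?_
  obtain ⟨γ, hγ⟩ := exists_global_of_emb (q : ℕ) L τ
  refine ⟨(γ : (Qb ≃ₐ[ℚ] Qb) ⧸ L.fixingSubgroup), ?_⟩
  rw [cosetPlaceAbove_mk, hγ]
  rfl

end PlaceAbove

end

end Fermat.Agent.S55.H81
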