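/-
S55 / Program C, package C9b (C) `eV` (helper81): helper43's orbit type `H43.Orb S L q` (orbits
of the local Galois group at `q` on `G_ℚ ⧸ G_L`) is the set of places of `L` above `q`.

* `orbEquivPlaceAbove S L q : H43.Orb S L q ≃ H88.PlaceAbove q L`  (orbits of embeddings);
* `orbEquivPlacesOver S L q : H43.Orb S L q ≃ ↥(H87.placesOver L {q})`  (primes of `𝓞 L`);
* `sigmaOrbEquivFinPlace S L : (Σ q : ↥S, H43.Orb S L q) ≃ {v : H88.FinPlace L // v.1 ∈ S}`;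
* `sigmaOrbEquivPlacesOver S L : (Σ q : ↥S, H43.Orb S L q) ≃ ↥(H87.placesOver L S)`.

Each comes with its value on `H43.orbMk q (γ G_L)`: the place of the embedding
`x ↦ padicEmbedding q (γ x)`.
-/
import Mathlib
import Fermat.Agent.S55.H81.IsoOrbBij
import Fermat.Agent.S55.H43.FieldFormMod
import Fermat.Agent.S55.H88.SemiLocalSpec
import Fermat.Agent.S55.H87.IsoSpec

set_option autoImplicit false

open NumberField IsDedekindDomain ExtCitation

namespace Fermat.Agent.S55.H81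

open Fermat.Agent.S55.H88

noncomputable section

local notation "Qb" => AlgebraicClosure ℚ

variable (S : Finset Nat.Primes) (L : IntermediateField ℚ Qb)

section PlaceAbove

/-- The place (orbit of embeddings) of an orbit of the local Galois group on `G_ℚ ⧸ G_L`. -/
def orbPlaceAbove (q : ↥S) (O : H43.Orb S L q) :
    haveI : Fact (q.1 : ℕ).Prime := ⟨q.1.2⟩
    PlaceAbove (q.1 : ℕ) ↥L :=
  cosetPlaceAbove q.1 L (H43.orbRep q O)

theorem orbPlaceAbove_orbMk (q : ↥S) (x : (Qb ≃ₐ[ℚ] Qb) ⧸ L.fixingSubgroup) :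
    orbPlaceAbove S L q (H43.orbMk q x) = cosetPlaceAbove q.1 L x := by
  rw [orbPlaceAbove, cosetPlaceAbove_eq_iff]
  have h := H43.orbMk_orbRep q (H43.orbMk q x)
  obtain ⟨g, hg⟩ := (H43.orbMk_eq_iff q _ _).1 h.symm
  exact ⟨g, hg⟩

theorem orbPlaceAbove_bijective (q : ↥S) : Function.Bijective (orbPlaceAbove S L q) := by
  constructor
  · intro O₁ O₂ h
    obtain ⟨x₁, rfl⟩ := H43.orbMk_surjective q O₁
    obtain ⟨x₂, rfl⟩ := H43.orbMk_surjective q O₂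
    rw [orbPlaceAbove_orbMk, orbPlaceAbove_orbMk, cosetPlaceAbove_eq_iff] at h
    obtain ⟨g, hg⟩ := h
    exact ((H43.orbMk_eq_iff q _ _).2 ⟨g, hg⟩).symm
  · intro w
    obtain ⟨x, rfl⟩ := cosetPlaceAbove_surjective q.1 L w
    exact ⟨H43.orbMk q x, orbPlaceAbove_orbMk S L q x⟩

/-- Orbits of the local Galois group at `q` on `G_ℚ ⧸ G_L` ≃ places of `L` above `q`. -/
def orbEquivPlaceAbove (q : ↥S) :
    haveI : Fact (q.1 : ℕ).Prime := ⟨q.1.2⟩
    H43.Orb S L q ≃ PlaceAbove (q.1 : ℕ) ↥L :=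
  Equiv.ofBijective _ (orbPlaceAbove_bijective S L q)

theorem orbEquivPlaceAbove_orbMk (q : ↥S) (x : (Qb ≃ₐ[ℚ] Qb) ⧸ L.fixingSubgroup) :
    orbEquivPlaceAbove S L q (H43.orbMk q x) = cosetPlaceAbove q.1 L x :=
  orbPlaceAbove_orbMk S L q x

/-- `(Σ q ∈ S, orbits at q) ≃ {finite places of L above S}` (`H88.FinPlace` model). -/
def sigmaOrbEquivFinPlace :
    (Σ q : ↥S, H43.Orb S L q) ≃ {v : FinPlace ↥L // v.1 ∈ S} where
  toFun w := ⟨⟨w.1.1, orbEquivPlaceAbove S L w.1 w.2⟩, w.1.2⟩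
  invFun v := ⟨⟨v.1.1, v.2⟩, (orbEquivPlaceAbove S L ⟨v.1.1, v.2⟩).symm v.1.2⟩
  left_inv := by
    rintro ⟨q, O⟩
    exact Sigma.ext rfl (heq_of_eq ((orbEquivPlaceAbove S L q).symm_apply_apply O))
  right_inv := by
    rintro ⟨⟨q, w⟩, hq⟩
    exact Subtype.ext (Sigma.ext rfl
      (heq_of_eq ((orbEquivPlaceAbove S L ⟨q, hq⟩).apply_symm_apply w)))

theorem sigmaOrbEquivFinPlace_mk (q : ↥S) (x : (Qb ≃ₐ[ℚ] Qb) ⧸ L.fixingSubgroup) :
    (sigmaOrbEquivFinPlace S L ⟨q, H43.orbMk q x⟩ : FinPlace ↥L) =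
      ⟨q.1, cosetPlaceAbove q.1 L x⟩ := by
  show (⟨q.1, orbEquivPlaceAbove S L q (H43.orbMk q x)⟩ : FinPlace ↥L) = _
  rw [orbEquivPlaceAbove_orbMk]

end PlaceAbove

section PlacesOver

variable [NumberField ↥L]

/-- The prime of `𝓞 L` above `q` of an orbit of the local Galois group on `G_ℚ ⧸ G_L`. -/
def orbPlacesOver (q : ↥S) (O : H43.Orb S L q) : ↥(H87.placesOver ↥L {q.1}) :=
  cosetPlace q.1 L (H43.orbRep q O)

theorem orbPlacesOver_orbMk (q : ↥S) (x : (Qb ≃ₐ[ℚ] Qb) ⧸ L.fixingSubgroup) :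
    orbPlacesOver S L q (H43.orbMk q x) = cosetPlace q.1 L x := by
  rw [orbPlacesOver, cosetPlace_eq_iff]
  have h := H43.orbMk_orbRep q (H43.orbMk q x)
  obtain ⟨g, hg⟩ := (H43.orbMk_eq_iff q _ _).1 h.symm
  exact ⟨g, hg⟩

theorem orbPlacesOver_bijective (q : ↥S) : Function.Bijective (orbPlacesOver S L q) := by
  constructor
  · intro O₁ O₂ h
    obtain ⟨x₁, rfl⟩ := H43.orbMk_surjective q O₁
    obtain ⟨x₂, rfl⟩ := H43.orbMk_surjective q O₂
    rw [orbPlacesOver_orbMk, orbPlacesOver_orbMk, cosetPlace_eq_iff] at h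
    obtain ⟨g, hg⟩ := h
    exact ((H43.orbMk_eq_iff q _ _).2 ⟨g, hg⟩).symm
  · intro w
    obtain ⟨x, rfl⟩ := cosetPlace_surjective q.1 L w
    exact ⟨H43.orbMk q x, orbPlacesOver_orbMk S L q x⟩

/-- Orbits of the local Galois group at `q` on `G_ℚ ⧸ G_L` ≃ primes of `𝓞 L` above `q`. -/
def orbEquivPlacesOver (q : ↥S) : H43.Orb S L q ≃ ↥(H87.placesOver ↥L {q.1}) :=
  Equiv.ofBijective _ (orbPlacesOver_bijective S L q)

theorem orbEquivPlacesOver_orbMk (q : ↥S) (x : (Qb ≃ₐ[ℚ] Qb) ⧸ L.fixingSubgroup) :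
    orbEquivPlacesOver S L q (H43.orbMk q x) = cosetPlace q.1 L x :=
  orbPlacesOver_orbMk S L q x

theorem placesOver_singleton_subset (q : ↥S) :
    H87.placesOver ↥L {q.1} ⊆ H87.placesOver ↥L S := by
  intro w hw
  rw [H87.mem_placesOver] at hw ⊢
  obtain ⟨a, ha, hwa⟩ := hw
  rw [Finset.mem_singleton] at ha
  exact ⟨q.1, q.2, ha ▸ hwa⟩

/-- The prime of `𝓞 L` above `S` of a pair `(q, orbit)`. -/
def sigmaOrbPlacesOver (w : Σ q : ↥S, H43.Orb S L q) : ↥(H87.placesOver ↥L S) :=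
  ⟨(orbEquivPlacesOver S L w.1 w.2 : HeightOneSpectrum (𝓞 ↥L)),
    placesOver_singleton_subset S L w.1 (orbEquivPlacesOver S L w.1 w.2).2⟩

theorem sigmaOrbPlacesOver_bijective : Function.Bijective (sigmaOrbPlacesOver S L) := by
  constructor
  · rintro ⟨q₁, O₁⟩ ⟨q₂, O₂⟩ h
    have h1 : (orbEquivPlacesOver S L q₁ O₁ : HeightOneSpectrum (𝓞 ↥L)) =
        orbEquivPlacesOver S L q₂ O₂ := congrArg Subtype.val h
    have hq : q₁ = q₂ := by
      by_contra hne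
      have hne' : q₁.1 ≠ q₂.1 := fun h' => hne (Subtype.ext h')
      have hd := H87.placesOver_disjoint ↥L hne'
      rw [Finset.disjoint_left] at hd
      refine hd (orbEquivPlacesOver S L q₁ O₁).2 ?_
      rw [h1]
      exact (orbEquivPlacesOver S L q₂ O₂).2
    subst hq
    have h2 : orbEquivPlacesOver S L q₁ O₁ = orbEquivPlacesOver S L q₁ O₂ := Subtype.ext h1
    rw [(orbEquivPlacesOver S L q₁).injective h2]
  · rintro ⟨w, hw⟩
    have hw' := hw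
    rw [H87.mem_placesOver] at hw'
    obtain ⟨a, ha, hwa⟩ := hw'
    have hw1 : w ∈ H87.placesOver ↥L {a} := by
      rw [H87.mem_placesOver]
      exact ⟨a, Finset.mem_singleton_self a, hwa⟩
    refine ⟨⟨⟨a, ha⟩, (orbEquivPlacesOver S L ⟨a, ha⟩).symm ⟨w, hw1⟩⟩, Subtype.ext ?_⟩
    show ((orbEquivPlacesOver S L ⟨a, ha⟩ ((orbEquivPlacesOver S L ⟨a, ha⟩).symm ⟨w, hw1⟩) :
      ↥(H87.placesOver ↥L {a})) : HeightOneSpectrum (𝓞 ↥L)) = w
    rw [Equiv.apply_symm_apply]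

/-- `(Σ q ∈ S, orbits at q) ≃ {primes of 𝓞 L above S}`. -/
def sigmaOrbEquivPlacesOver : (Σ q : ↥S, H43.Orb S L q) ≃ ↥(H87.placesOver ↥L S) :=
  Equiv.ofBijective _ (sigmaOrbPlacesOver_bijective S L)

theorem sigmaOrbEquivPlacesOver_mk (q : ↥S) (x : (Qb ≃ₐ[ℚ] Qb) ⧸ L.fixingSubgroup) :
    (sigmaOrbEquivPlacesOver S L ⟨q, H43.orbMk q x⟩ : HeightOneSpectrum (𝓞 ↥L)) =
      (cosetPlace q.1 L x : HeightOneSpectrum (𝓞 ↥L)) := by
  show ((orbEquivPlacesOver S L q (H43.orbMk q x) : ↥(H87.placesOver ↥L {q.1})) :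
    HeightOneSpectrum (𝓞 ↥L)) = _
  rw [orbEquivPlacesOver_orbMk]

end PlacesOver

end

end Fermat.Agent.S55.H81
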