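/-
S55 / Program C, package C9b, leaf L2-P (helper81): the arithmetic leaf (SAT) in helper93's
verbatim shape `H93.SatStatement p S`, from helper56's landed `H56.sat` (adapter: a finite set of
primes in `Nat.Primes` versus a `Finset ℕ` bound).
-/
import Mathlib
import Fermat.Agent.S55.H56.Sat
import Fermat.Agent.S55.H93.L2PSat

set_option autoImplicit false

namespace Fermat.Agent.S55.H81

/-- **Leaf (SAT)** of L2-P, verbatim (`p ∈ S`). -/
theorem satStatement {p : ℕ} [Fact p.Prime] {S : Finset Nat.Primes}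
    (hpS : ExtCitation.pPrime p ∈ S) : H93.SatStatement p S := by
  classical
  intro K hK b hinv hfin
  refine H56.sat hpS hK b hinv ⟨hfin.toFinset.image (fun ℓ : Nat.Primes => (ℓ : ℕ)), ?_⟩
  intro ℓ _ A hA hb
  exact Finset.mem_image.2 ⟨ℓ, hfin.mem_toFinset.2 ⟨A, hA, hb⟩, rfl⟩

end Fermat.Agent.S55.H81
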